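import Mathlib

section MergeWrap_S28_DegAbs -- from S28/DegAbs.lean

/-!
# S28, auxiliary: the degree absolute value on `k[X]` and weighted coefficient bounds
for monic divisors (Gauss lemma for the weighted degree).
-/

set_option autoImplicit false

namespace Fermat.Agent.S28

open Polynomial

open scoped Classical

noncomputable section

variable {k : Type*} [Field k]

/-- The absolute value `p ↦ 2 ^ deg p` on `k[X]`. -/
def degAbs (k : Type*) [Field k] : AbsoluteValue k[X] ℝ where
  toFun p := if p = 0 then 0 else (2 : ℝ) ^ p.natDegree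
  map_mul' p q := by
    by_cases hp : p = 0
    · simp [hp]
    by_cases hq : q = 0
    · simp [hq]
    simp [hp, hq, natDegree_mul hp hq, pow_add]
  nonneg' p := by
    by_cases hp : p = 0
    · simp [hp]
    · simp [hp]
  eq_zero' p := by
    by_cases hp : p = 0
    · simp [hp]
    · simp [hp]
  add_le' p q := by
    by_cases hp : p = 0
    · simp [hp]
    by_cases hq : q = 0
    · simp [hq]
    by_cases hpq : p + q = 0
    · simp only [hpq, hp, hq, if_true, if_false]
      positivity
    simp only [hpq, hp, hq, if_false]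
    have h := natDegree_add_le p q
    rcases le_max_iff.mp h with h1 | h1
    · calc (2 : ℝ) ^ (p + q).natDegree ≤ 2 ^ p.natDegree :=
            pow_le_pow_right₀ (by norm_num) h1
        _ ≤ 2 ^ p.natDegree + 2 ^ q.natDegree := by
            have : (0 : ℝ) ≤ 2 ^ q.natDegree := by positivity
            linarith
    · calc (2 : ℝ) ^ (p + q).natDegree ≤ 2 ^ q.natDegree :=
            pow_le_pow_right₀ (by norm_num) h1
        _ ≤ 2 ^ p.natDegree + 2 ^ q.natDegree := by
            have : (0 : ℝ) ≤ 2 ^ p.natDegree := by positivity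
            linarith

theorem degAbs_apply (p : k[X]) :
    degAbs k p = if p = 0 then 0 else (2 : ℝ) ^ p.natDegree := rfl

theorem degAbs_of_ne_zero {p : k[X]} (hp : p ≠ 0) : degAbs k p = (2 : ℝ) ^ p.natDegree := by
  rw [degAbs_apply, if_neg hp]

theorem degAbs_le_pow (p : k[X]) : degAbs k p ≤ (2 : ℝ) ^ p.natDegree := by
  rw [degAbs_apply]
  split_ifs
  · positivity
  · exact le_rfl

theorem degAbs_one : degAbs k (1 : k[X]) = 1 := by
  rw [degAbs_of_ne_zero one_ne_zero, natDegree_one, pow_zero]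

theorem isNonarchimedean_degAbs : IsNonarchimedean (degAbs k) := by
  intro p q
  by_cases hp : p = 0
  · simp [hp]
  by_cases hq : q = 0
  · simp [hq]
  by_cases hpq : p + q = 0
  · rw [hpq, map_zero]
    exact le_max_of_le_left ((degAbs k).nonneg p)
  rw [degAbs_of_ne_zero hpq, degAbs_of_ne_zero hp, degAbs_of_ne_zero hq]
  have h := natDegree_add_le p q
  rcases le_max_iff.mp h with h1 | h1
  · exact le_max_of_le_left (pow_le_pow_right₀ (by norm_num) h1)
  · exact le_max_of_le_right (pow_le_pow_right₀ (by norm_num) h1)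

/-- Gauss lemma for the weighted degree: if `χ = m * m₁` with `m, m₁` monic in `k[Y][X]` and all
monomials `Y^a X^i` of `χ` have weight `a + φ i ≤ φ · deg χ`, then the same holds for `m`. -/
theorem weighted_bound_of_monic_mul {φ : ℕ} (χ m m₁ : k[X][X]) (hm : m.Monic) (hm₁ : m₁.Monic)
    (hχ : χ = m * m₁)
    (hχc : ∀ i, i < χ.natDegree → (χ.coeff i).natDegree + φ * i ≤ φ * χ.natDegree) :
    ∀ i, i < m.natDegree → (m.coeff i).natDegree + φ * i ≤ φ * m.natDegree := by
  classical
  have hχm : χ.Monic := hχ ▸ hm.mul hm₁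
  set c : ℝ := (2 : ℝ) ^ φ with hc
  have hc0 : 0 < c := by positivity
  have hna := isNonarchimedean_degAbs (k := k)
  have hdeg : χ.natDegree = m.natDegree + m₁.natDegree := by
    rw [hχ, hm.natDegree_mul hm₁]
  -- upper bound for χ
  have hχle : χ.gaussNorm (degAbs k) c ≤ c ^ χ.natDegree := by
    obtain ⟨i, hi⟩ := χ.exists_eq_gaussNorm (degAbs k) c
    rw [hi]
    rcases lt_trichotomy i χ.natDegree with h | h | h
    · have := hχc i h
      calc degAbs k (χ.coeff i) * c ^ i ≤ (2 : ℝ) ^ (χ.coeff i).natDegree * c ^ i := by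
            gcongr
            exact degAbs_le_pow _
        _ = (2 : ℝ) ^ ((χ.coeff i).natDegree + φ * i) := by
            rw [hc, ← pow_mul, ← pow_add]
        _ ≤ (2 : ℝ) ^ (φ * χ.natDegree) := pow_le_pow_right₀ (by norm_num) this
        _ = c ^ χ.natDegree := by rw [hc, ← pow_mul]
    · rw [h, hχm.coeff_natDegree, degAbs_one, one_mul]
    · rw [coeff_eq_zero_of_natDegree_lt h, map_zero, zero_mul]
      positivity
  have hmge : c ^ m₁.natDegree ≤ m₁.gaussNorm (degAbs k) c := by
    have := m₁.le_gaussNorm (degAbs k) hc0.le m₁.natDegree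
    rwa [hm₁.coeff_natDegree, degAbs_one, one_mul] at this
  have hmul : χ.gaussNorm (degAbs k) c = m.gaussNorm (degAbs k) c * m₁.gaussNorm (degAbs k) c := by
    rw [hχ]
    exact gaussNorm_mul hna hc0 m m₁
  have hmnn : 0 ≤ m.gaussNorm (degAbs k) c := m.gaussNorm_nonneg (degAbs k) hc0.le
  have hmle : m.gaussNorm (degAbs k) c ≤ c ^ m.natDegree := by
    have h1 : m.gaussNorm (degAbs k) c * c ^ m₁.natDegree ≤ c ^ m.natDegree * c ^ m₁.natDegree := by
      calc m.gaussNorm (degAbs k) c * c ^ m₁.natDegree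
          ≤ m.gaussNorm (degAbs k) c * m₁.gaussNorm (degAbs k) c := by gcongr
        _ = χ.gaussNorm (degAbs k) c := hmul.symm
        _ ≤ c ^ χ.natDegree := hχle
        _ = c ^ m.natDegree * c ^ m₁.natDegree := by rw [hdeg, pow_add]
    exact le_of_mul_le_mul_right h1 (by positivity)
  intro i hi
  by_cases h0 : m.coeff i = 0
  · rw [h0, natDegree_zero, zero_add]
    exact Nat.mul_le_mul_left φ hi.le
  have h2 := (m.le_gaussNorm (degAbs k) hc0.le i).trans hmle
  rw [degAbs_of_ne_zero h0, hc, ← pow_mul, ← pow_mul, ← pow_add] at h2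
  exact (pow_le_pow_iff_right₀ (by norm_num : (1 : ℝ) < 2)).mp h2

end

end Fermat.Agent.S28
end MergeWrap_S28_DegAbs

section MergeWrap_S28_OrderLemma -- from S28/OrderLemma.lean

/-!
# S28, Theorem C (order lemma)

Let `j, u ∈ k((q))` with `ord j = -1`, `u ≠ 0`, and suppose `u` is a root of a monic polynomial
`χ ∈ k[Y][X]` of degree `n` (evaluated at `Y = j`) whose coefficients satisfy
`deg_Y (coeff_i χ) ≤ φ (n - i)`, and `ord u ≥ φ (n - 1)` with `φ ≥ 1`.
Then no nonzero polynomial of `X`-degree `< n` over `k[Y]` kills `u`, i.e. `1, u, …, u^{n-1}` are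
linearly independent over `k(j)`.
-/

set_option autoImplicit false

namespace Fermat.Agent.S28

open Polynomial

noncomputable section

variable {k : Type*} [Field k]

/-- The order valuation on Laurent series. -/
abbrev ordV (k : Type*) [Field k] : AddValuation (LaurentSeries k) (WithTop ℤ) :=
  HahnSeries.addVal ℤ k

/-- Evaluation of the inner variable at `j`. -/
abbrev evJ (j : LaurentSeries k) : k[X] →+* LaurentSeries k :=
  ((aeval j : k[X] →ₐ[k] LaurentSeries k) : k[X] →+* LaurentSeries k)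

theorem algebraMap_eq_single_zero (c : k) :
    algebraMap k (LaurentSeries k) c = HahnSeries.single (0 : ℤ) c := by
  have h1 : algebraMap k (PowerSeries k) c = PowerSeries.C c := by
    simp
  rw [HahnSeries.algebraMap_apply', h1, HahnSeries.ofPowerSeries_C]
  rfl

theorem ordV_algebraMap_of_ne_zero {c : k} (hc : c ≠ 0) :
    ordV k (algebraMap k (LaurentSeries k) c) = 0 := by
  rw [HahnSeries.addVal_apply, algebraMap_eq_single_zero, HahnSeries.orderTop_single hc]
  rfl

theorem ordV_algebraMap_nonneg (c : k) :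
    (0 : WithTop ℤ) ≤ ordV k (algebraMap k (LaurentSeries k) c) := by
  by_cases hc : c = 0
  · simp [hc]
  · rw [ordV_algebraMap_of_ne_zero hc]

theorem ordV_pow_of_eq {x : LaurentSeries k} {a : ℤ} (hx : ordV k x = (a : WithTop ℤ)) (i : ℕ) :
    ordV k (x ^ i) = ((i * a : ℤ) : WithTop ℤ) := by
  rw [AddValuation.map_pow, hx, ← WithTop.coe_nsmul]
  simp

theorem ordV_term_ge (j : LaurentSeries k) (hj : ordV k j = ((-1 : ℤ) : WithTop ℤ)) (c : k) (i : ℕ) :
    ((-(i : ℤ) : ℤ) : WithTop ℤ) ≤ ordV k (algebraMap k (LaurentSeries k) c * j ^ i) := by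
  rw [AddValuation.map_mul, ordV_pow_of_eq hj]
  calc ((-(i : ℤ) : ℤ) : WithTop ℤ) = 0 + ((i * (-1) : ℤ) : WithTop ℤ) := by simp
    _ ≤ _ := by gcongr; exact ordV_algebraMap_nonneg c

/-- Lower bound: `ord p(j) ≥ - deg p`. -/
theorem ordV_evJ_ge (j : LaurentSeries k) (hj : ordV k j = ((-1 : ℤ) : WithTop ℤ)) (p : k[X]) :
    ((-(p.natDegree : ℤ) : ℤ) : WithTop ℤ) ≤ ordV k (evJ j p) := by
  show _ ≤ ordV k (aeval j p)
  rw [aeval_def, eval₂_eq_sum_range]
  refine AddValuation.map_le_sum _ fun i hi => ?_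
  refine le_trans ?_ (ordV_term_ge j hj _ i)
  have : i ≤ p.natDegree := Nat.lt_succ_iff.mp (Finset.mem_range.mp hi)
  exact_mod_cast neg_le_neg (Int.ofNat_le.mpr this)

/-- Exact order: `ord p(j) = - deg p` for `p ≠ 0`. -/
theorem ordV_evJ_eq (j : LaurentSeries k) (hj : ordV k j = ((-1 : ℤ) : WithTop ℤ)) {p : k[X]}
    (hp : p ≠ 0) : ordV k (evJ j p) = ((-(p.natDegree : ℤ) : ℤ) : WithTop ℤ) := by
  show ordV k (aeval j p) = _
  rw [aeval_def, eval₂_eq_sum_range, Finset.sum_range_succ]
  have hlead : ordV k (algebraMap k (LaurentSeries k) (p.coeff p.natDegree) * j ^ p.natDegree) =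
      ((-(p.natDegree : ℤ) : ℤ) : WithTop ℤ) := by
    have hlc : p.coeff p.natDegree ≠ 0 := leadingCoeff_ne_zero.mpr hp
    rw [AddValuation.map_mul, ordV_pow_of_eq hj, ordV_algebraMap_of_ne_zero hlc, zero_add]
    simp
  have hrest : ((-(p.natDegree : ℤ) : ℤ) : WithTop ℤ) <
      ordV k (∑ i ∈ Finset.range p.natDegree,
        algebraMap k (LaurentSeries k) (p.coeff i) * j ^ i) := by
    refine AddValuation.map_lt_sum' _ (WithTop.coe_lt_top _) fun i hi => ?_
    refine lt_of_lt_of_le ?_ (ordV_term_ge j hj _ i)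
    have : i < p.natDegree := Finset.mem_range.mp hi
    exact_mod_cast neg_lt_neg (Int.ofNat_lt.mpr this)
  rw [← hlead] at hrest ⊢
  exact AddValuation.map_add_eq_of_lt_right _ hrest

theorem evJ_injective (j : LaurentSeries k) (hj : ordV k j = ((-1 : ℤ) : WithTop ℤ)) :
    Function.Injective (evJ j) := by
  rw [injective_iff_map_eq_zero]
  intro p hp
  by_contra h
  have := ordV_evJ_eq j hj h
  rw [hp, AddValuation.map_zero] at this
  exact WithTop.top_ne_coe this

/-- **Theorem C** (order lemma). -/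
theorem order_lemma (j u : LaurentSeries k) (hj : ordV k j = ((-1 : ℤ) : WithTop ℤ)) (hu : u ≠ 0)
    {n φ : ℕ} (hφ : 0 < φ) (χ : k[X][X]) (hχm : χ.Monic) (hχd : χ.natDegree = n)
    (hχc : ∀ i, i < n → (χ.coeff i).natDegree + φ * i ≤ φ * n)
    (hχu : χ.eval₂ (evJ j) u = 0)
    (hord : (((φ * (n - 1) : ℕ) : ℤ) : WithTop ℤ) ≤ ordV k u)
    (P : k[X][X]) (hPd : P.natDegree < n) (hP : P.eval₂ (evJ j) u = 0) : P = 0 := by
  classical
  let alg : Algebra k[X] (LaurentSeries k) := (evJ j).toAlgebra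
  have halg : algebraMap k[X] (LaurentSeries k) = evJ j := rfl
  have hinj : Function.Injective (algebraMap k[X] (LaurentSeries k)) := evJ_injective j hj
  have : Module.IsTorsionFree k[X] (LaurentSeries k) :=
    Module.isTorsionFree_iff_algebraMap_injective.mpr hinj
  have hint : IsIntegral k[X] u := ⟨χ, hχm, by rw [halg]; exact hχu⟩
  set m := minpoly k[X] u with hm
  have hm_monic : m.Monic := minpoly.monic hint
  have hm_aeval : m.eval₂ (evJ j) u = 0 := by
    have := minpoly.aeval k[X] u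
    rwa [aeval_def, halg] at this
  have hχ_dvd : m ∣ χ := minpoly.isIntegrallyClosed_dvd hint (by rw [aeval_def, halg]; exact hχu)
  obtain ⟨m₁, hm₁⟩ := hχ_dvd
  have hm₁_monic : m₁.Monic := hm_monic.of_mul_monic_left (hm₁ ▸ hχm)
  have hdeg : n = m.natDegree + m₁.natDegree := by
    rw [← hχd, hm₁, hm_monic.natDegree_mul hm₁_monic]
  have hbound := weighted_bound_of_monic_mul (φ := φ) χ m m₁ hm_monic hm₁_monic hm₁
    (by rw [hχd]; exact hχc)
  -- the key inequality `n ≤ deg m`
  have hkey : n ≤ m.natDegree := by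
    by_contra hlt
    push Not at hlt
    -- constant coefficient is nonzero
    have hm0 : m.coeff 0 ≠ 0 := by
      intro h0
      have hX : (X : k[X][X]) ∣ m := X_dvd_iff.mpr h0
      obtain ⟨m', hm'⟩ := hX
      have hm'u : m'.eval₂ (evJ j) u = 0 := by
        have := hm_aeval
        rw [hm', eval₂_mul, eval₂_X] at this
        exact (mul_eq_zero.mp this).resolve_left hu
      have hdvd : m ∣ m' :=
        minpoly.isIntegrallyClosed_dvd hint (by rw [aeval_def, halg]; exact hm'u)
      have hm'0 : m' ≠ 0 := by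
        rintro rfl
        rw [mul_zero] at hm'
        exact hm_monic.ne_zero hm'
      have h1 := natDegree_le_of_dvd hdvd hm'0
      have h2 : m.natDegree = m'.natDegree + 1 := by
        rw [hm', natDegree_X_mul hm'0]
      omega
    -- expand `m(u) = 0`
    have hsum : ∑ i ∈ Finset.range (m.natDegree + 1), evJ j (m.coeff i) * u ^ i = 0 := by
      rw [← hm_aeval, eval₂_eq_sum_range]
    rw [Finset.sum_range_succ', pow_zero, mul_one] at hsum
    have h0 : evJ j (m.coeff 0) =
        -∑ i ∈ Finset.range m.natDegree, evJ j (m.coeff (i + 1)) * u ^ (i + 1) := by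
      rw [eq_neg_iff_add_eq_zero, add_comm]; exact hsum
    have hv0 : ordV k (evJ j (m.coeff 0)) ≤ 0 := by
      rw [ordV_evJ_eq j hj hm0]
      exact_mod_cast neg_nonpos.mpr (Int.natCast_nonneg _)
    have hv1 : (1 : WithTop ℤ) ≤
        ordV k (-∑ i ∈ Finset.range m.natDegree, evJ j (m.coeff (i + 1)) * u ^ (i + 1)) := by
      rw [AddValuation.map_neg]
      refine AddValuation.map_le_sum _ fun i hi => ?_
      have hi' : i < m.natDegree := Finset.mem_range.mp hi
      rw [AddValuation.map_mul, AddValuation.map_pow]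
      have hc : ((-((m.coeff (i + 1)).natDegree : ℤ) : ℤ) : WithTop ℤ) ≤
          ordV k (evJ j (m.coeff (i + 1))) := ordV_evJ_ge j hj _
      have hu' : (((i + 1 : ℕ) * ((φ * (n - 1) : ℕ) : ℤ) : ℤ) : WithTop ℤ) ≤ (i + 1) • ordV k u := by
        calc (((i + 1 : ℕ) * ((φ * (n - 1) : ℕ) : ℤ) : ℤ) : WithTop ℤ)
            = (i + 1) • (((φ * (n - 1) : ℕ) : ℤ) : WithTop ℤ) := by
              rw [← WithTop.coe_nsmul]; simp
          _ ≤ (i + 1) • ordV k u := nsmul_le_nsmul_right hord _
      -- degree bound for the coefficient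
      have hcb : (m.coeff (i + 1)).natDegree + φ * (i + 1) ≤ φ * m.natDegree := by
        rcases Nat.lt_or_ge (i + 1) m.natDegree with h | h
        · exact hbound (i + 1) h
        · have : i + 1 = m.natDegree := by omega
          rw [this, hm_monic.coeff_natDegree, natDegree_one, zero_add]
      have hnum : (1 : ℤ) ≤ -((m.coeff (i + 1)).natDegree : ℤ) +
          ((i + 1 : ℕ) * ((φ * (n - 1) : ℕ) : ℤ)) := by
        have hn1 : 1 ≤ n := by omega
        have h1 : ((m.coeff (i + 1)).natDegree : ℤ) + φ * (i + 1) ≤ φ * m.natDegree := by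
          exact_mod_cast hcb
        have h2 : (m.natDegree : ℤ) + 1 ≤ n := by exact_mod_cast hlt
        have h3 : ((φ * (n - 1) : ℕ) : ℤ) = (φ : ℤ) * ((n : ℤ) - 1) := by
          rw [Nat.cast_mul, Nat.cast_sub hn1]; simp
        rw [h3]
        push_cast
        have hφ' : (1 : ℤ) ≤ φ := by exact_mod_cast hφ
        have hi0 : (0 : ℤ) ≤ i := Int.natCast_nonneg _
        nlinarith [mul_nonneg hi0 (mul_nonneg (by linarith : (0:ℤ) ≤ φ) (by linarith : (0:ℤ) ≤ (n:ℤ) - 1)),
          mul_le_mul_of_nonneg_left h2 (by linarith : (0:ℤ) ≤ φ)]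
      calc (1 : WithTop ℤ) ≤ ((-((m.coeff (i + 1)).natDegree : ℤ) +
            ((i + 1 : ℕ) * ((φ * (n - 1) : ℕ) : ℤ)) : ℤ) : WithTop ℤ) := by exact_mod_cast hnum
        _ = ((-((m.coeff (i + 1)).natDegree : ℤ) : ℤ) : WithTop ℤ) +
            (((i + 1 : ℕ) * ((φ * (n - 1) : ℕ) : ℤ) : ℤ) : WithTop ℤ) := by push_cast; rfl
        _ ≤ _ := add_le_add hc hu'
    rw [← h0] at hv1
    have := hv1.trans hv0
    exact absurd this (by decide)
  -- conclusion
  by_contra hP0
  have hdvd : m ∣ P := minpoly.isIntegrallyClosed_dvd hint (by rw [aeval_def, halg]; exact hP)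
  have := natDegree_le_of_dvd hdvd hP0
  omega

end

end Fermat.Agent.S28
end MergeWrap_S28_OrderLemma
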