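import Mathlib
import Fermat.Agent.MU.S28.Retract

section MergeWrap_S28_DescentD1 -- from S28/DescentD1.lean

set_option autoImplicit false

namespace Fermat.Agent.S28

open Polynomial ModularCurve

noncomputable section

/-- An injective coefficient map preserves the order of a Laurent series. -/
theorem orderTop_coeffMap {A B : Type*} [CommRing A] [CommRing B] {f : A →+* B}
    (hf : Function.Injective f) (x : LaurentSeries A) :
    (coeffMap f x).orderTop = x.orderTop := by
  have hne : ∀ k, (coeffMap f x).coeff k ≠ 0 ↔ x.coeff k ≠ 0 := fun k => by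
    rw [coeffMap_coeff]
    exact (map_ne_zero_iff f hf)
  apply le_antisymm
  · by_cases hx : x = 0
    · rw [hx, HahnSeries.orderTop_zero]; exact le_top
    · have h1 := HahnSeries.coeff_orderTop_ne (x := x) (g := x.order)
        (HahnSeries.order_eq_orderTop_of_ne_zero hx).symm
      rw [← HahnSeries.order_eq_orderTop_of_ne_zero hx]
      exact HahnSeries.orderTop_le_of_coeff_ne_zero ((hne _).mpr h1)
  · by_cases hx : coeffMap f x = 0
    · rw [hx, HahnSeries.orderTop_zero]; exact le_top
    · have h1 := HahnSeries.coeff_orderTop_ne (x := coeffMap f x) (g := (coeffMap f x).order)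
        (HahnSeries.order_eq_orderTop_of_ne_zero hx).symm
      rw [← HahnSeries.order_eq_orderTop_of_ne_zero hx]
      exact HahnSeries.orderTop_le_of_coeff_ne_zero ((hne _).mp h1)

variable {L : Type*} [Field L] [Algebra ℚ L]

theorem ordV_coeffEmb (x : LaurentSeries ℚ) : ordV L (coeffEmb L x) = ordV ℚ x := by
  rw [ordV, ordV, HahnSeries.addVal_apply, HahnSeries.addVal_apply]
  exact orderTop_coeffMap (algebraMap ℚ L).injective x

theorem coeffEmb_injective : Function.Injective (coeffEmb L) :=
  coeffMap_injective (algebraMap ℚ L).injective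

theorem coeffEmb_pev2 (j u : LaurentSeries ℚ) (P : ℚ[X][X]) :
    coeffEmb L (pev2 j u P) =
      pev2 (coeffEmb L j) (coeffEmb L u) (P.map (mapRingHom (algebraMap ℚ L))) :=
  coeffMap_pev2 (algebraMap ℚ L) j u P

/-- **(D1)** `χ` has rational coefficients. -/
theorem chi_rational (j u : LaurentSeries ℚ) (hj : ordV ℚ j = ((-1 : ℤ) : WithTop ℤ))
    (hu : u ≠ 0) {n φ : ℕ} (hφ : 0 < φ)
    (hord : (((φ * (n - 1) : ℕ) : ℤ) : WithTop ℤ) ≤ ordV ℚ u)
    (χ : L[X][X]) (hχm : χ.Monic) (hχd : χ.natDegree = n)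
    (hχc : ∀ i, i < n → (χ.coeff i).natDegree + φ * i ≤ φ * n)
    (hχu : pev2 (coeffEmb L j) (coeffEmb L u) χ = 0) :
    ∃ χQ : ℚ[X][X], χQ.map (mapRingHom (algebraMap ℚ L)) = χ ∧ χQ.Monic ∧ χQ.natDegree = n ∧
      (∀ i, i < n → (χQ.coeff i).natDegree + φ * i ≤ φ * n) ∧ pev2 j u χQ = 0 := by
  obtain ⟨r, hr⟩ := exists_retraction L
  have hinjm : Function.Injective (mapRingHom (algebraMap ℚ L)) :=
    Polynomial.map_injective _ (algebraMap ℚ L).injective
  set χQ : ℚ[X][X] := polyRet2 r χ with hχQ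
  set χ' : L[X][X] := χQ.map (mapRingHom (algebraMap ℚ L)) with hχ'
  have hQroot : pev2 j u χQ = 0 := by rw [hχQ, ← retL_pev2, hχu, retL_zero]
  have h'root : pev2 (coeffEmb L j) (coeffEmb L u) χ' = 0 := by
    rw [hχ', ← coeffEmb_pev2, hQroot, map_zero]
  -- the leading coefficient of `χQ`
  have hQn : χQ.coeff n = 1 := by
    rw [hχQ, polyRet2_coeff, ← hχd, hχm.coeff_natDegree]
    ext k
    rw [polyRet_coeff, coeff_one, coeff_one]
    split_ifs
    · simpa using hr 1
    · exact map_zero r
  have hQdeg : χQ.natDegree ≤ n := hχd ▸ polyRet2_natDegree_le r χ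
  have h'n : χ'.coeff n = 1 := by
    rw [hχ', coeff_map, hQn, map_one]
  have h'deg : χ'.natDegree ≤ n := (natDegree_map_le).trans hQdeg
  -- the difference has degree `< n` and kills `uC`, so it vanishes
  have hdiff : χ - χ' = 0 := by
    rcases Nat.eq_zero_or_pos n with hn0 | hnpos
    · -- `n = 0`: `χ = 1` has no roots
      exfalso
      have h1 : χ = 1 := by
        rw [← hχm.natDegree_eq_zero]; rw [hχd, hn0]
      rw [h1, map_one] at hχu
      exact one_ne_zero hχu
    · refine order_lemma (coeffEmb L j) (coeffEmb L u) (by rw [ordV_coeffEmb, hj])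
        ((map_ne_zero_iff _ coeffEmb_injective).mpr hu) hφ χ hχm hχd hχc
        (by rw [← pev2_eq_eval₂_evJ]; exact hχu) (by rw [ordV_coeffEmb]; exact hord)
        (χ - χ') ?_ (by rw [← pev2_eq_eval₂_evJ, map_sub, hχu, h'root, sub_zero])
      rw [Nat.lt_iff_le_pred hnpos, natDegree_le_iff_coeff_eq_zero]
      intro k hk
      have hk' : n ≤ k := by omega
      rcases hk'.eq_or_lt with rfl | hlt
      · rw [coeff_sub, h'n, ← hχd, hχm.coeff_natDegree, sub_self]
      · rw [coeff_sub, coeff_eq_zero_of_natDegree_lt (hχd ▸ hlt),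
          coeff_eq_zero_of_natDegree_lt (lt_of_le_of_lt h'deg hlt), sub_zero]
  have heq : χ' = χ := (sub_eq_zero.mp hdiff).symm
  refine ⟨χQ, heq, ?_, ?_, ?_, hQroot⟩
  · exact monic_of_natDegree_le_of_coeff_eq_one n hQdeg hQn
  · rw [← hχd, ← heq, hχ', natDegree_map_eq_of_injective hinjm]
  · intro i hi
    have := hχc i hi
    rw [← heq, hχ', coeff_map, coe_mapRingHom,
      natDegree_map_eq_of_injective (algebraMap ℚ L).injective] at this
    exact this

end

end Fermat.Agent.S28
end MergeWrap_S28_DescentD1
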