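import Mathlib.NumberTheory.ModularForms.Discriminant
import Fermat.Prelude.Def_ModularForm_HeckeOperator

section MergeWrap_S28_DeltaBounds -- from S28/DeltaBounds.lean

set_option autoImplicit false

namespace Fermat.Agent.S28

open UpperHalfPlane ModularForm Filter Complex
open scoped Real Topology

/-- `‖q(τ)‖ = e^{-2π Im τ}`. -/
lemma wp2_norm_qParam_one (τ : ℍ) : ‖Function.Periodic.qParam 1 τ‖ = Real.exp (-2 * π * τ.im) := by
  simp [Function.Periodic.qParam, Complex.norm_exp]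

lemma wp2_qParam_one_ne_zero (τ : ℍ) : Function.Periodic.qParam 1 (τ : ℂ) ≠ 0 := by
  simp [Function.Periodic.qParam]

/-- `Δ(τ) / q(τ) → 1` at `i∞`. -/
theorem tendsto_discriminant_div_qParam :
    Tendsto (fun τ : ℍ => discriminant τ / Function.Periodic.qParam 1 (τ : ℂ)) atImInfty (𝓝 1) := by
  refine Tendsto.congr (fun τ => ?_) tendsto_atImInfty_tprod_one_sub_eta_q_pow
  rw [discriminant_eq_q_prod, mul_div_cancel_left₀ _ (wp2_qParam_one_ne_zero τ)]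

/-- The Euler product `∏ (1 - q^(n+1))^24` as a function of `q`. -/
noncomputable def wp2EulerProd24 (q : ℂ) : ℂ := ∏' n : ℕ, (1 - q ^ (n + 1)) ^ 24

lemma wp2_discriminant_eq_qParam_mul_eulerProd24 (τ : ℍ) :
    discriminant τ = Function.Periodic.qParam 1 (τ : ℂ) *
      wp2EulerProd24 (Function.Periodic.qParam 1 (τ : ℂ)) := by
  rw [discriminant_eq_q_prod]
  rfl

lemma wp2_continuousOn_eulerProd24 : ContinuousOn wp2EulerProd24 (Metric.ball (0 : ℂ) 1) :=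
  (differentiableOn_tprod_one_sub_pow_pow 24).continuousOn

lemma wp2_eulerProd24_ne_zero {q : ℂ} (hq : ‖q‖ < 1) : wp2EulerProd24 q ≠ 0 := by
  unfold wp2EulerProd24
  rw [(multipliable_one_sub_pow hq).tprod_pow 24]
  refine pow_ne_zero _ ?_
  have h := tprod_one_add_ne_zero_of_summable (f := fun n : ℕ => -q ^ (n + 1)) ?_ ?_
  · simpa [sub_eq_add_neg] using h
  · intro i
    rw [← sub_eq_add_neg, sub_ne_zero]
    intro h1
    have h2 : ‖q ^ (i + 1)‖ = 1 := by rw [← h1, norm_one]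
    rw [norm_pow] at h2
    have h3 : ‖q‖ ^ (i + 1) < 1 := pow_lt_one₀ (norm_nonneg _) hq (Nat.succ_ne_zero i)
    linarith
  · simpa using (summable_nat_add_iff 1).mpr (summable_geometric_of_lt_one (norm_nonneg _) hq)

/-- Two-sided bounds for the Euler product on a closed disc of radius `r < 1`. -/
lemma wp2_exists_eulerProd24_bounds {r : ℝ} (hr : r < 1) :
    ∃ c C : ℝ, 0 < c ∧ 0 < C ∧ ∀ q : ℂ, ‖q‖ ≤ r → c ≤ ‖wp2EulerProd24 q‖ ∧ ‖wp2EulerProd24 q‖ ≤ C := by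
  rcases lt_or_ge r 0 with hneg | hr0
  · exact ⟨1, 1, one_pos, one_pos, fun q hq => absurd (norm_nonneg q) (by linarith)⟩
  have hsub : Metric.closedBall (0 : ℂ) r ⊆ Metric.ball (0 : ℂ) 1 :=
    Metric.closedBall_subset_ball hr
  have hcont : ContinuousOn (fun q => ‖wp2EulerProd24 q‖) (Metric.closedBall (0 : ℂ) r) :=
    (wp2_continuousOn_eulerProd24.mono hsub).norm
  have hcomp : IsCompact (Metric.closedBall (0 : ℂ) r) := isCompact_closedBall 0 r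
  have hne : (Metric.closedBall (0 : ℂ) r).Nonempty := ⟨0, by simpa using hr0⟩
  obtain ⟨q₁, hq₁, hmin⟩ := hcomp.exists_isMinOn hne hcont
  obtain ⟨q₂, hq₂, hmax⟩ := hcomp.exists_isMaxOn hne hcont
  have hq₁' : ‖q₁‖ < 1 := by simpa using hsub hq₁
  have hq₂' : ‖q₂‖ < 1 := by simpa using hsub hq₂
  refine ⟨‖wp2EulerProd24 q₁‖, ‖wp2EulerProd24 q₂‖, norm_pos_iff.mpr (wp2_eulerProd24_ne_zero hq₁'),
    norm_pos_iff.mpr (wp2_eulerProd24_ne_zero hq₂'), fun q hq => ?_⟩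
  have hqmem : q ∈ Metric.closedBall (0 : ℂ) r := by simpa using hq
  exact ⟨hmin hqmem, hmax hqmem⟩

/-- Two-sided bounds `c·e^{-2π Im τ} ≤ ‖Δ τ‖ ≤ C·e^{-2π Im τ}` on the half plane `Im τ ≥ y₀`. -/
theorem exists_discriminant_bounds {y₀ : ℝ} (hy₀ : 0 < y₀) :
    ∃ c C : ℝ, 0 < c ∧ 0 < C ∧ ∀ τ : ℍ, y₀ ≤ τ.im →
      c * Real.exp (-2 * π * τ.im) ≤ ‖discriminant τ‖ ∧
        ‖discriminant τ‖ ≤ C * Real.exp (-2 * π * τ.im) := by
  have hr : Real.exp (-2 * π * y₀) < 1 := by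
    rw [← Real.exp_zero, Real.exp_lt_exp]
    have := Real.pi_pos
    nlinarith
  obtain ⟨c, C, hc, hC, h⟩ := wp2_exists_eulerProd24_bounds hr
  refine ⟨c, C, hc, hC, fun τ hτ => ?_⟩
  have hq : ‖Function.Periodic.qParam 1 (τ : ℂ)‖ ≤ Real.exp (-2 * π * y₀) := by
    rw [wp2_norm_qParam_one, Real.exp_le_exp]
    have := Real.pi_pos
    nlinarith
  obtain ⟨h1, h2⟩ := h _ hq
  rw [wp2_discriminant_eq_qParam_mul_eulerProd24, norm_mul, wp2_norm_qParam_one]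
  have hpos : 0 < Real.exp (-2 * π * τ.im) := Real.exp_pos _
  constructor
  · rw [mul_comm]; exact mul_le_mul_of_nonneg_left h1 hpos.le
  · rw [mul_comm C]; exact mul_le_mul_of_nonneg_left h2 hpos.le

end Fermat.Agent.S28
end MergeWrap_S28_DeltaBounds

section MergeWrap_S28_Hermite -- from S28/Hermite.lean

set_option autoImplicit false

namespace Fermat.Agent.S28

open UpperHalfPlane ModularForm Filter Complex
open scoped Real Topology MatrixGroups ModularForm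

/-- Integer Hermite decomposition `diag(δ,1) γ = σ (g b; 0 δ/g)` with `g = gcd(δ, γ 1 0)`. -/
lemma wp1_hermite_int (δ : ℕ) (hδ : δ ≠ 0) (γ : SL(2, ℤ)) :
    ∃ (σ : SL(2, ℤ)) (b : ℤ),
      (δ : ℤ) * γ 0 0 = σ 0 0 * (Int.gcd δ (γ 1 0) : ℤ) ∧
      (δ : ℤ) * γ 0 1 = σ 0 0 * b + σ 0 1 * ((δ / Int.gcd δ (γ 1 0) : ℕ) : ℤ) ∧
      γ 1 0 = σ 1 0 * (Int.gcd δ (γ 1 0) : ℤ) ∧
      γ 1 1 = σ 1 0 * b + σ 1 1 * ((δ / Int.gcd δ (γ 1 0) : ℕ) : ℤ) := by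
  have hdet : γ 0 0 * γ 1 1 - γ 0 1 * γ 1 0 = 1 := by
    have := γ.det_coe
    rw [Matrix.det_fin_two] at this
    exact this
  set a := γ 0 0 with ha
  set b := γ 0 1 with hb
  set c := γ 1 0 with hc
  set d := γ 1 1 with hd
  set h : ℕ := Int.gcd (δ : ℤ) c with hh
  have hhpos : 0 < h := Int.gcd_pos_of_ne_zero_left _ (by exact_mod_cast hδ)
  have hhδ : h ∣ δ := by
    have : (h : ℤ) ∣ (δ : ℤ) := Int.gcd_dvd_left _ _
    exact_mod_cast this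
  obtain ⟨D, hD⟩ := hhδ
  have hDdiv : δ / h = D := by rw [hD]; exact Nat.mul_div_cancel_left D hhpos
  obtain ⟨c₁, hc₁⟩ : (h : ℤ) ∣ c := Int.gcd_dvd_right _ _
  have hDZ : (δ : ℤ) = (h : ℤ) * (D : ℤ) := by exact_mod_cast hD
  have hcop : IsCoprime (D : ℤ) c₁ := by
    rw [Int.isCoprime_iff_gcd_eq_one]
    have h1 : Int.gcd ((h : ℤ) * D) ((h : ℤ) * c₁) = h := by rw [← hDZ, ← hc₁]
    rw [Int.gcd_mul_left] at h1
    simp only [Int.natAbs_natCast] at h1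
    have : h * Int.gcd (D : ℤ) c₁ = h * 1 := by rw [h1, mul_one]
    exact Nat.eq_of_mul_eq_mul_left hhpos this
  have hcop2 : IsCoprime a c₁ := ⟨d, -b * h, by rw [hc₁] at hdet; linear_combination hdet⟩
  obtain ⟨x, y, hxy⟩ : IsCoprime ((D : ℤ) * a) c₁ := IsCoprime.mul_left hcop hcop2
  refine ⟨⟨!![(D : ℤ) * a, -y; c₁, x], ?_⟩, x * δ * b + y * d, ?_, ?_, ?_, ?_⟩
  · rw [Matrix.det_fin_two_of]; linear_combination hxy
  · simp only [Matrix.of_apply, Matrix.cons_val', Matrix.cons_val_zero,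
      Matrix.cons_val_fin_one]
    rw [hDZ]; ring
  · simp only [Matrix.of_apply, Matrix.cons_val', Matrix.cons_val_zero,
      Matrix.cons_val_fin_one, Matrix.cons_val_one]
    rw [hDdiv, hDZ]
    rw [hc₁] at hdet
    linear_combination (-(D * b * h)) * hxy + (-(D * y)) * hdet
  · simp only [Matrix.of_apply, Matrix.cons_val', Matrix.cons_val_zero,
      Matrix.cons_val_fin_one, Matrix.cons_val_one]
    rw [hc₁]; ring
  · simp only [Matrix.of_apply, Matrix.cons_val', Matrix.cons_val_zero,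
      Matrix.cons_val_fin_one, Matrix.cons_val_one]
    rw [hDdiv, hDZ]
    rw [hc₁] at hdet
    linear_combination (-d) * hxy + (x * D) * hdet

end Fermat.Agent.S28

namespace Fermat.Agent.S28

open UpperHalfPlane ModularForm Filter Complex
open scoped Real Topology MatrixGroups ModularForm

/-- `g = gcd(δ, c)` for `γ = (a b; c d)`. -/
def wp1G (δ : ℕ) (γ : SL(2, ℤ)) : ℕ := Int.gcd (δ : ℤ) (γ 1 0)

/-- `e = δ / gcd(δ, c)`. -/
def wp1E (δ : ℕ) (γ : SL(2, ℤ)) : ℕ := δ / wp1G δ γ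

lemma wp1G_pos {δ : ℕ} (hδ : δ ≠ 0) (γ : SL(2, ℤ)) : 0 < wp1G δ γ :=
  Int.gcd_pos_of_ne_zero_left _ (by exact_mod_cast hδ)

lemma wp1G_dvd (δ : ℕ) (γ : SL(2, ℤ)) : wp1G δ γ ∣ δ := by
  have : ((wp1G δ γ : ℕ) : ℤ) ∣ (δ : ℤ) := Int.gcd_dvd_left _ _
  exact_mod_cast this

lemma wp1G_mul_wp1E (δ : ℕ) (γ : SL(2, ℤ)) : wp1G δ γ * wp1E δ γ = δ :=
  Nat.mul_div_cancel' (wp1G_dvd δ γ)

lemma wp1E_pos {δ : ℕ} (hδ : δ ≠ 0) (γ : SL(2, ℤ)) : 0 < wp1E δ γ := by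
  rcases Nat.eq_zero_or_pos (wp1E δ γ) with h | h
  · have := wp1G_mul_wp1E δ γ
    rw [h, mul_zero] at this
    exact absurd this.symm hδ
  · exact h

lemma wp1_ne {δ : ℕ} (hδ : δ ≠ 0) (γ : SL(2, ℤ)) :
    ((wp1G δ γ : ℕ) : ℝ) * ((wp1E δ γ : ℕ) : ℝ) ≠ 0 := by
  have h1 := wp1G_pos hδ γ
  have h2 := wp1E_pos hδ γ
  positivity

/-- Hermite decomposition in `GL(2,ℝ)`. -/
lemma wp1_hermite_GL (δ : ℕ) (hδ : δ ≠ 0) (γ : SL(2, ℤ)) :
    ∃ (σ : SL(2, ℤ)) (b : ℤ),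
      heckeDiagMatrix δ * (γ : GL (Fin 2) ℝ) =
        (σ : GL (Fin 2) ℝ) * upperTriangularGL (wp1G δ γ) b (wp1E δ γ) (wp1_ne hδ γ) := by
  obtain ⟨σ, b, e00, e01, e10, e11⟩ := wp1_hermite_int δ hδ γ
  refine ⟨σ, b, ?_⟩
  have r00 : (δ : ℝ) * (γ 0 0 : ℝ) = (σ 0 0 : ℝ) * (wp1G δ γ : ℝ) := by exact_mod_cast e00
  have r01 : (δ : ℝ) * (γ 0 1 : ℝ) = (σ 0 0 : ℝ) * b + (σ 0 1 : ℝ) * (wp1E δ γ : ℝ) := by
    exact_mod_cast e01
  have r10 : (γ 1 0 : ℝ) = (σ 1 0 : ℝ) * (wp1G δ γ : ℝ) := by exact_mod_cast e10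
  have r11 : (γ 1 1 : ℝ) = (σ 1 0 : ℝ) * b + (σ 1 1 : ℝ) * (wp1E δ γ : ℝ) := by
    exact_mod_cast e11
  apply Matrix.GeneralLinearGroup.ext
  intro i j
  fin_cases i <;> fin_cases j <;>
    simp [Matrix.mul_apply, Fin.sum_univ_two, val_heckeDiagMatrix hδ, r00, r01, r10, r11]

end Fermat.Agent.S28
end MergeWrap_S28_Hermite

section MergeWrap_S28_DeltaQuotDefs -- from S28/DeltaQuotDefs.lean

set_option autoImplicit false

namespace Fermat.Agent.S28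

open UpperHalfPlane ModularForm Filter Complex
open scoped Real Topology MatrixGroups ModularForm

/-- `τ ↦ Δ(δ τ)`. -/
noncomputable def dDelta (δ : ℕ) : ℍ → ℂ := fun τ => discriminant (heckeDiagMatrix δ • τ)

/-- The Δ-quotient `τ ↦ ∏_{δ ∈ S} Δ(δ τ)^{m δ}`. -/
noncomputable def deltaQuot (S : Finset ℕ) (m : ℕ → ℤ) : ℍ → ℂ :=
  fun τ => ∏ δ ∈ S, dDelta δ τ ^ m δ

/-- The weight `12 · Σ_{δ ∈ S} m δ` of a Δ-quotient. -/
def deltaQuotWeight (S : Finset ℕ) (m : ℕ → ℤ) : ℤ := 12 * ∑ δ ∈ S, m δ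

/-- The order `Σ_{δ ∈ S} m δ · gcd(δ,c)² / δ` of a Δ-quotient at the cusp `γ∞`, `c = γ 1 0`. -/
noncomputable def deltaQuotOrd (S : Finset ℕ) (m : ℕ → ℤ) (γ : SL(2, ℤ)) : ℝ :=
  ∑ δ ∈ S, (m δ : ℝ) * ((wp1G δ γ : ℝ) ^ 2 / (δ : ℝ))

lemma dDelta_ne_zero (δ : ℕ) (τ : ℍ) : dDelta δ τ ≠ 0 := discriminant_ne_zero _

lemma deltaQuot_ne_zero (S : Finset ℕ) (m : ℕ → ℤ) (τ : ℍ) : deltaQuot S m τ ≠ 0 :=
  Finset.prod_ne_zero_iff.mpr fun δ _ => zpow_ne_zero _ (dDelta_ne_zero δ τ)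

end Fermat.Agent.S28

namespace Fermat.Agent.S28

open UpperHalfPlane ModularForm Filter Complex
open scoped Real Topology MatrixGroups ModularForm

variable {ι : Type*}

/-- General-index Δ-quotient `τ ↦ ∏_{i ∈ S} Δ(δ_i τ)^{m_i}`. -/
noncomputable def dqFun (S : Finset ι) (δ : ι → ℕ) (m : ι → ℤ) : ℍ → ℂ :=
  fun τ => ∏ i ∈ S, dDelta (δ i) τ ^ m i

/-- The weight `12 · Σ_{i ∈ S} m_i`. -/
def dqWeight (S : Finset ι) (m : ι → ℤ) : ℤ := 12 * ∑ i ∈ S, m i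

/-- The order `Σ_{i ∈ S} m_i · gcd(δ_i,c)² / δ_i` at the cusp `γ∞`, `c = γ 1 0`. -/
noncomputable def dqOrd (S : Finset ι) (δ : ι → ℕ) (m : ι → ℤ) (γ : SL(2, ℤ)) : ℝ :=
  ∑ i ∈ S, (m i : ℝ) * ((wp1G (δ i) γ : ℝ) ^ 2 / (δ i : ℝ))

lemma dqFun_ne_zero (S : Finset ι) (δ : ι → ℕ) (m : ι → ℤ) (τ : ℍ) : dqFun S δ m τ ≠ 0 :=
  Finset.prod_ne_zero_iff.mpr fun i _ => zpow_ne_zero _ (dDelta_ne_zero (δ i) τ)

lemma deltaQuot_eq_dqFun (S : Finset ℕ) (m : ℕ → ℤ) : deltaQuot S m = dqFun S id m := rfl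

lemma deltaQuotWeight_eq_dqWeight (S : Finset ℕ) (m : ℕ → ℤ) :
    deltaQuotWeight S m = dqWeight S m := rfl

lemma deltaQuotOrd_eq_dqOrd (S : Finset ℕ) (m : ℕ → ℤ) (γ : SL(2, ℤ)) :
    deltaQuotOrd S m γ = dqOrd S id m γ := rfl

end Fermat.Agent.S28
end MergeWrap_S28_DeltaQuotDefs
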