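import Fermat.Agent.MU.S28.DeltaQuotDefs
import Fermat.Agent.S28.UnitArith

section MergeWrap_S28_UnitOrd -- from S28/UnitOrd.lean

/-!
# S28, WP3b (helper31): weight and orders at the cusps of the canonical modular unit

For `S = unitSet N`, `m = unitM N` (so that `deltaQuot S m = w_N`):
* `deltaQuotWeight_unit` : the weight is `12 · φ(rad N)`;
* `deltaQuotOrd_unit_of_not_dvd` : the order at `γ∞` is `0` if `N ∤ γ 1 0`;
* `deltaQuotOrd_unit_of_dvd` : the order at `γ∞` is `unitE N > 0` if `N ∣ γ 1 0`.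
-/

set_option autoImplicit false

namespace Fermat.Agent.S28

open Finset
open scoped MatrixGroups

lemma wp1G_eq_gcd_natAbs (δ : ℕ) (γ : SL(2, ℤ)) : wp1G δ γ = Nat.gcd δ (γ 1 0).natAbs := by
  simp [wp1G, Int.gcd]

lemma deltaQuotWeight_unit (N : ℕ) (hN : N ≠ 0) :
    deltaQuotWeight (unitSet N) (unitM N) = 12 * (unitPhi N : ℤ) := by
  rw [deltaQuotWeight, sum_unitM N hN]

/-- The order of `w_N` at `i∞`: `E = Σ_δ m_δ · δ`. -/
def unitE (N : ℕ) : ℤ := ∑ δ ∈ unitSet N, unitM N δ * (δ : ℤ)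

lemma unitE_eq_sum (N : ℕ) (hN : N ≠ 0) :
    unitE N = ∑ T ∈ unitIdx N, unitExp N T * (unitDelta N T : ℤ) := by
  rw [unitE, sum_unitSet hN]
  exact Finset.sum_congr rfl fun T hT => by rw [unitM_unitDelta hN (Finset.mem_powerset.mp hT)]

/-- `δ_T = (N / rad N) · ∏_{p ∉ T} p`. -/
lemma unitDelta_eq {N : ℕ} {T : Finset ℕ} (hT : T ⊆ N.primeFactors) :
    unitDelta N T = N / (∏ p ∈ N.primeFactors, p) * ∏ p ∈ N.primeFactors \ T, p := by
  have h1 := unitDelta_mul hT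
  have h2 : (∏ p ∈ N.primeFactors \ T, p) * ∏ p ∈ T, p = ∏ p ∈ N.primeFactors, p :=
    Finset.prod_sdiff hT
  have h3 : N / (∏ p ∈ N.primeFactors, p) * (∏ p ∈ N.primeFactors, p) = N :=
    Nat.div_mul_cancel (Nat.prod_primeFactors_dvd N)
  have hpos := wp3b_prod_pos_of_subset_primeFactors hT
  apply Nat.eq_of_mul_eq_mul_right hpos
  rw [h1, mul_assoc, h2, h3]

lemma unitE_eq (N : ℕ) (hN : N ≠ 0) :
    unitE N = ((N / (∏ p ∈ N.primeFactors, p) : ℕ) : ℤ) * ∏ p ∈ N.primeFactors, ((p : ℤ) ^ 2 - 1) := by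
  rw [unitE_eq_sum N hN]
  have h1 : ∀ p ∈ N.primeFactors, ((p : ℤ) ^ 2 - 1) = (-1 : ℤ) + (p : ℤ) ^ 2 := fun p _ => by ring
  rw [Finset.prod_congr rfl h1, Finset.prod_add, Finset.mul_sum]
  refine Finset.sum_congr rfl fun T hT => ?_
  have hT' : T ⊆ N.primeFactors := Finset.mem_powerset.mp hT
  rw [unitDelta_eq hT', unitExp, Finset.prod_const, Finset.prod_pow]
  push_cast
  ring

lemma unitE_pos (N : ℕ) (hN : N ≠ 0) : 0 < unitE N := by
  rw [unitE_eq N hN]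
  refine mul_pos ?_ (Finset.prod_pos fun p hp => ?_)
  · have h1 : 0 < N / (∏ p ∈ N.primeFactors, p) :=
      Nat.div_pos (Nat.le_of_dvd (Nat.pos_of_ne_zero hN) (Nat.prod_primeFactors_dvd N))
        (Finset.prod_pos fun p hp => (Nat.prime_of_mem_primeFactors hp).pos)
    exact_mod_cast h1
  · have h2 : (2 : ℤ) ≤ p := by exact_mod_cast (Nat.prime_of_mem_primeFactors hp).two_le
    nlinarith

/-- `m_T / δ_T = (-1)^{|T|} · rad N / N`. -/
lemma unitExp_div_unitDelta {N : ℕ} (hN : N ≠ 0) {T : Finset ℕ} (hT : T ⊆ N.primeFactors) :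
    (unitExp N T : ℝ) / (unitDelta N T : ℝ) =
      (-1) ^ T.card * ((∏ p ∈ N.primeFactors, p : ℕ) : ℝ) / (N : ℝ) := by
  have h1 : (unitExp N T : ℝ) * ((∏ p ∈ T, p : ℕ) : ℝ) =
      (-1) ^ T.card * ((∏ p ∈ N.primeFactors, p : ℕ) : ℝ) := by
    have h : ((unitExp N T * ((∏ p ∈ T, p : ℕ) : ℤ) : ℤ) : ℝ) =
        (((-1) ^ T.card * ∏ p ∈ N.primeFactors, (p : ℤ) : ℤ) : ℝ) := by
      rw [unitExp_mul_prod hT]
    push_cast at h ⊢
    exact h
  have h2 : (unitDelta N T : ℝ) * ((∏ p ∈ T, p : ℕ) : ℝ) = (N : ℝ) := by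
    exact_mod_cast unitDelta_mul hT
  have hs : ((∏ p ∈ T, p : ℕ) : ℝ) ≠ 0 := by
    exact_mod_cast (wp3b_prod_pos_of_subset_primeFactors hT).ne'
  have hd : (unitDelta N T : ℝ) ≠ 0 := by exact_mod_cast (unitDelta_pos hN hT).ne'
  have hN' : (N : ℝ) ≠ 0 := by exact_mod_cast hN
  rw [div_eq_div_iff hd hN', ← h2, ← h1]
  ring

lemma deltaQuotOrd_unit_eq_sum (N : ℕ) (hN : N ≠ 0) (γ : SL(2, ℤ)) :
    deltaQuotOrd (unitSet N) (unitM N) γ =
      ∑ T ∈ unitIdx N, (unitExp N T : ℝ) *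
        (((Nat.gcd (unitDelta N T) (γ 1 0).natAbs : ℕ) : ℝ) ^ 2 / (unitDelta N T : ℝ)) := by
  rw [deltaQuotOrd, sum_unitSet hN]
  refine Finset.sum_congr rfl fun T hT => ?_
  rw [unitM_unitDelta hN (Finset.mem_powerset.mp hT), wp1G_eq_gcd_natAbs]

/-- The order of `w_N` at a cusp `γ∞` with `N ∤ c` is `0`. -/
lemma deltaQuotOrd_unit_of_not_dvd (N : ℕ) (hN : N ≠ 0) (γ : SL(2, ℤ))
    (h : ¬ (N : ℤ) ∣ γ 1 0) : deltaQuotOrd (unitSet N) (unitM N) γ = 0 := by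
  have hc : ¬ N ∣ (γ 1 0).natAbs := fun h' => h (Int.natCast_dvd.mpr h')
  have key := wp3b_sum_neg_one_pow_gcd_sq hN hc
  have key' : ∑ T ∈ unitIdx N, ((-1 : ℝ) ^ T.card *
      ((Nat.gcd (unitDelta N T) (γ 1 0).natAbs : ℕ) : ℝ) ^ 2) = 0 := by
    have h2 : ((∑ T ∈ unitIdx N, (-1 : ℤ) ^ T.card *
        ((Nat.gcd (unitDelta N T) (γ 1 0).natAbs : ℕ) : ℤ) ^ 2 : ℤ) : ℝ) = ((0 : ℤ) : ℝ) := by
      rw [key]
    push_cast at h2
    exact h2
  rw [deltaQuotOrd_unit_eq_sum N hN]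
  have : ∀ T ∈ unitIdx N, (unitExp N T : ℝ) *
      (((Nat.gcd (unitDelta N T) (γ 1 0).natAbs : ℕ) : ℝ) ^ 2 / (unitDelta N T : ℝ)) =
      (((∏ p ∈ N.primeFactors, p : ℕ) : ℝ) / (N : ℝ)) *
        ((-1) ^ T.card * ((Nat.gcd (unitDelta N T) (γ 1 0).natAbs : ℕ) : ℝ) ^ 2) := by
    intro T hT
    have h1 := unitExp_div_unitDelta hN (Finset.mem_powerset.mp hT)
    calc (unitExp N T : ℝ) *
        (((Nat.gcd (unitDelta N T) (γ 1 0).natAbs : ℕ) : ℝ) ^ 2 / (unitDelta N T : ℝ))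
        = ((unitExp N T : ℝ) / (unitDelta N T : ℝ)) *
            ((Nat.gcd (unitDelta N T) (γ 1 0).natAbs : ℕ) : ℝ) ^ 2 := by ring
      _ = _ := by rw [h1]; ring
  rw [Finset.sum_congr rfl this, ← Finset.mul_sum, key', mul_zero]

/-- The order of `w_N` at a cusp `γ∞` with `N ∣ c` is `unitE N`. -/
lemma deltaQuotOrd_unit_of_dvd (N : ℕ) (hN : N ≠ 0) (γ : SL(2, ℤ))
    (h : (N : ℤ) ∣ γ 1 0) : deltaQuotOrd (unitSet N) (unitM N) γ = (unitE N : ℝ) := by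
  have hc : N ∣ (γ 1 0).natAbs := Int.natCast_dvd.mp h
  rw [deltaQuotOrd_unit_eq_sum N hN, unitE_eq_sum N hN]
  push_cast
  refine Finset.sum_congr rfl fun T hT => ?_
  have hT' : T ⊆ N.primeFactors := Finset.mem_powerset.mp hT
  have hg : Nat.gcd (unitDelta N T) (γ 1 0).natAbs = unitDelta N T :=
    Nat.gcd_eq_left ((unitDelta_dvd hT').trans hc)
  have hd : (unitDelta N T : ℝ) ≠ 0 := by exact_mod_cast (unitDelta_pos hN hT').ne'
  rw [hg]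
  field_simp

lemma deltaQuotOrd_unit_nonneg (N : ℕ) (hN : N ≠ 0) (γ : SL(2, ℤ)) :
    0 ≤ deltaQuotOrd (unitSet N) (unitM N) γ := by
  by_cases h : (N : ℤ) ∣ γ 1 0
  · rw [deltaQuotOrd_unit_of_dvd N hN γ h]
    exact_mod_cast (unitE_pos N hN).le
  · rw [deltaQuotOrd_unit_of_not_dvd N hN γ h]

end Fermat.Agent.S28
end MergeWrap_S28_UnitOrd
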