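import Fermat.Prelude.Def_ModularForm_HeckeOperator
import Fermat.Prelude.Def_ModularCurve_X0ModL
import Fermat.Prelude.Thm_ModularCurve_coeffMap_qExpand
import Fermat.Agent.MU.S28.LevelOnePoly
import Fermat.Agent.MU.S28.QExp
import Fermat.Agent.MU.S28.IntOver
import Fermat.Agent.MU.S28.Eval
import Fermat.Agent.S28.UnitArith
import Fermat.Agent.MU.S28.DeltaQuotDefs
import Fermat.Agent.MU.S28.UnitOrd

section MergeWrap_S28_LevelOneSum -- from S28/LevelOneSum.lean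

set_option autoImplicit false

namespace Fermat.Agent.S28

open UpperHalfPlane ModularForm MatrixGroups EisensteinSeries Polynomial SlashInvariantForm
open Fermat.Agent.S23

/-- The function `Σ_{k ≤ m} P_k E₄^{3k} Δ^{m-k}`. -/
noncomputable def wp4SumFun (m : ℕ) (P : Polynomial ℂ) : ℍ → ℂ :=
  ∑ k ∈ Finset.range (m + 1),
    P.coeff k • ((E₄ : ℍ → ℂ) ^ (3 * k) * (discriminant : ℍ → ℂ) ^ (m - k))

lemma wp4SumFun_apply (m : ℕ) (P : Polynomial ℂ) (τ : ℍ) :
    wp4SumFun m P τ =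
      ∑ k ∈ Finset.range (m + 1), P.coeff k * (E₄ τ ^ (3 * k) * discriminant τ ^ (m - k)) := by
  simp [wp4SumFun, Finset.sum_apply]

/-- `Δ ^ m · P(J) = Σ_{k ≤ m} P_k E₄^{3k} Δ^{m-k}` when `deg P ≤ m`. -/
lemma wp4_delta_pow_mul_eval (m : ℕ) (P : Polynomial ℂ) (hP : P.natDegree ≤ m) (τ : ℍ) :
    discriminant τ ^ m * P.eval (wp4J τ) = wp4SumFun m P τ := by
  rw [wp4SumFun_apply, eval_eq_sum_range' (Nat.lt_succ_of_le hP), Finset.mul_sum]
  refine Finset.sum_congr rfl fun k hk => ?_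
  have hk' : k ≤ m := Nat.lt_succ_iff.mp (Finset.mem_range.mp hk)
  have hΔ := discriminant_ne_zero τ
  rw [wp4J, div_pow, ← pow_mul]
  have : discriminant τ ^ m = discriminant τ ^ (m - k) * discriminant τ ^ k := by
    rw [← pow_add, Nat.sub_add_cancel hk']
  rw [this]
  field_simp

/-- **WP4 (a), division-free**: a level one form of weight `12 m` equals
`Σ_{k ≤ m} P_k E₄^{3k} Δ^{m-k}` for a polynomial `P` of degree `≤ m`. -/
theorem wp4_isMF_eq_sumFun {k : ℤ} (m : ℕ) (hk : k = 12 * (m : ℤ)) {g : ℍ → ℂ}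
    (hg : IsMF 𝒮ℒ k g) :
    ∃ P : Polynomial ℂ, P.natDegree ≤ m ∧ g = wp4SumFun m P ∧
      ∀ τ : ℍ, g τ = discriminant τ ^ m * P.eval (wp4J τ) := by
  obtain ⟨P, hP, hPe⟩ := wp4_isDeltaPoly_of_isMF m hk hg
  refine ⟨P, hP, ?_, hPe⟩
  funext τ
  rw [hPe, wp4_delta_pow_mul_eval m P hP]

lemma wp4_qa_E4 : QA (E₄ : ℍ → ℂ) := (IsMF.of E₄).qa Fermat.Agent.S23.one_mem_strictPeriods_SL

lemma wp4_qa_discriminant : QA (discriminant : ℍ → ℂ) :=
  (IsCF.of CuspForm.discriminant).isMF.qa Fermat.Agent.S23.one_mem_strictPeriods_SL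

lemma wp4_qa_sumFun (m : ℕ) (P : Polynomial ℂ) : QA (wp4SumFun m P) :=
  QA.sum _ _ fun _ _ => ((wp4_qa_E4.pow _).mul (wp4_qa_discriminant.pow _)).smul _

/-- The q-expansion of `Σ_{k ≤ m} P_k E₄^{3k} Δ^{m-k}`. -/
theorem wp4_qExpansion_sumFun (m : ℕ) (P : Polynomial ℂ) :
    qExpansion 1 (wp4SumFun m P) =
      ∑ k ∈ Finset.range (m + 1),
        P.coeff k • (qExpansion 1 (E₄ : ℍ → ℂ) ^ (3 * k) *
          qExpansion 1 (discriminant : ℍ → ℂ) ^ (m - k)) := by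
  unfold wp4SumFun
  rw [QA.qExpansion_sum _ _ fun _ _ =>
    ((wp4_qa_E4.pow _).mul (wp4_qa_discriminant.pow _)).smul _]
  refine Finset.sum_congr rfl fun k _ => ?_
  rw [QA.qExpansion_smul _ ((wp4_qa_E4.pow _).mul (wp4_qa_discriminant.pow _)),
    QA.qExpansion_mul (wp4_qa_E4.pow _) (wp4_qa_discriminant.pow _),
    QA.qExpansion_pow wp4_qa_E4, QA.qExpansion_pow wp4_qa_discriminant]

/-- **WP4 (a), q-expansion form**. -/
theorem wp4_isMF_qExpansion_eq {k : ℤ} (m : ℕ) (hk : k = 12 * (m : ℤ)) {g : ℍ → ℂ}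
    (hg : IsMF 𝒮ℒ k g) :
    ∃ P : Polynomial ℂ, P.natDegree ≤ m ∧ g = wp4SumFun m P ∧
      qExpansion 1 g = ∑ k ∈ Finset.range (m + 1),
        P.coeff k • (qExpansion 1 (E₄ : ℍ → ℂ) ^ (3 * k) *
          qExpansion 1 (discriminant : ℍ → ℂ) ^ (m - k)) := by
  obtain ⟨P, hP, hPe, -⟩ := wp4_isMF_eq_sumFun m hk hg
  exact ⟨P, hP, hPe, by rw [hPe, wp4_qExpansion_sumFun]⟩

/-- **WP4 (b), division-free**: elementary symmetric functions of the translates. -/
theorem wp4_esymmFun_eq_sumFun (N : ℕ) [NeZero N] {k : ℤ} (M : ℕ) (hk : k = 12 * (M : ℤ))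
    (F : ModularForm (G0 N) k) (i : ℕ) :
    ∃ P : Polynomial ℂ, P.natDegree ≤ M * i ∧ esymmFun N F i = wp4SumFun (M * i) P :=
  let ⟨P, hP, hPe, _⟩ := wp4_isMF_eq_sumFun (M * i) (by rw [hk]; push_cast; ring)
    (isMF_esymmFun N F i)
  ⟨P, hP, hPe⟩

/-! ### Power sums (traces) -/

theorem wp4_slash_mul_pow (γ : SL(2, ℤ)) (f t : ℍ → ℂ) (k₁ k₂ : ℤ) (r : ℕ) :
    (f * t ^ r) ∣[k₁ + k₂ * r] γ = (f ∣[k₁] γ) * (t ∣[k₂] γ) ^ r := by
  induction r with
  | zero => simp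
  | succ r ih =>
    have h1 : f * t ^ (r + 1) = (f * t ^ r) * t := by rw [pow_succ, mul_assoc]
    have h2 : k₁ + k₂ * ((r + 1 : ℕ) : ℤ) = (k₁ + k₂ * r) + k₂ := by push_cast; ring
    rw [h1, h2, ModularForm.mul_slash_SL2, ih, pow_succ, mul_assoc]

theorem wp4_quotientFunc_mul_pow {N : ℕ} [NeZero N] {k₁ k₂ : ℤ}
    {F G H : Type*} [FunLike F ℍ ℂ] [FunLike G ℍ ℂ] [FunLike H ℍ ℂ]
    (r : ℕ) [SlashInvariantFormClass F (G0 N) k₁] [SlashInvariantFormClass G (G0 N) k₂]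
    [SlashInvariantFormClass H (G0 N) (k₁ + k₂ * r)]
    (f : F) (t : G) (h : H) (hh : (h : ℍ → ℂ) = f * (t : ℍ → ℂ) ^ r) (q : Q N) :
    quotientFunc h q = quotientFunc f q * quotientFunc t q ^ r := by
  induction q using Quotient.inductionOn with
  | h g =>
    change (h : ℍ → ℂ) ∣[k₁ + k₂ * r] (g : GL (Fin 2) ℝ)⁻¹ =
      (f : ℍ → ℂ) ∣[k₁] (g : GL (Fin 2) ℝ)⁻¹ * ((t : ℍ → ℂ) ∣[k₂] (g : GL (Fin 2) ℝ)⁻¹) ^ r
    obtain ⟨γ, hγ⟩ := g.2
    have : ((g : GL (Fin 2) ℝ))⁻¹ = Matrix.SpecialLinearGroup.mapGL ℝ γ⁻¹ := by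
      rw [map_inv, hγ]
    rw [hh, this]
    have := wp4_slash_mul_pow γ⁻¹ (f : ℍ → ℂ) (t : ℍ → ℂ) k₁ k₂ r
    simp only [ModularForm.SL_slash] at this
    exact this

/-- The power sums `Σ_q f_q t_q^r` of the translates are level one modular forms. -/
theorem wp4_isMF_powerSum {N : ℕ} [NeZero N] {k₁ k₂ : ℤ} (f : ModularForm (G0 N) k₁)
    (t : ModularForm (G0 N) k₂) (r : ℕ) :
    IsMF 𝒮ℒ (k₁ + k₂ * r) (∑ q : Q N, quotientFunc f q * quotientFunc t q ^ r) := by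
  obtain ⟨G, hG⟩ : IsMF (G0 N) (k₁ + k₂ * r) ((f : ℍ → ℂ) * (t : ℍ → ℂ) ^ r) :=
    (IsMF.of f).mul ((IsMF.of t).pow r)
  refine ⟨ModularForm.trace 𝒮ℒ G, ?_⟩
  rw [ModularForm.coe_trace]
  refine Finset.sum_congr rfl fun q _ => ?_
  exact wp4_quotientFunc_mul_pow r f t G hG q

/-- **WP4, traces, division-free**: for `f` of weight `12 d` and `t` of weight `12 M` on `Γ₀(N)`
the power sum `Σ_q f_q t_q^r` is `Σ_{k ≤ d + M r} P_k E₄^{3k} Δ^{d + M r - k}`. -/
theorem wp4_powerSum_eq_sumFun (N : ℕ) [NeZero N] {k₁ k₂ : ℤ} (d M : ℕ)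
    (hk₁ : k₁ = 12 * (d : ℤ)) (hk₂ : k₂ = 12 * (M : ℤ))
    (f : ModularForm (G0 N) k₁) (t : ModularForm (G0 N) k₂) (r : ℕ) :
    ∃ P : Polynomial ℂ, P.natDegree ≤ d + M * r ∧
      (∑ q : Q N, quotientFunc f q * quotientFunc t q ^ r) = wp4SumFun (d + M * r) P :=
  let ⟨P, hP, hPe, _⟩ := wp4_isMF_eq_sumFun (d + M * r) (by rw [hk₁, hk₂]; push_cast; ring)
    (wp4_isMF_powerSum f t r)
  ⟨P, hP, hPe⟩

/-- **WP4, trace of a single form, division-free**. -/
theorem wp4_trace_eq_sumFun (N : ℕ) [NeZero N] {k : ℤ} (m : ℕ) (hk : k = 12 * (m : ℤ))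
    (G : ModularForm (G0 N) k) :
    ∃ P : Polynomial ℂ, P.natDegree ≤ m ∧ (ModularForm.trace 𝒮ℒ G : ℍ → ℂ) = wp4SumFun m P :=
  let ⟨P, hP, hPe, _⟩ := wp4_isMF_eq_sumFun m hk (IsMF.of (ModularForm.trace 𝒮ℒ G))
  ⟨P, hP, hPe⟩

end Fermat.Agent.S28
end MergeWrap_S28_LevelOneSum

section MergeWrap_S28_Certificate -- from S28/Certificate.lean

set_option autoImplicit false

namespace Fermat.Agent.S28

open UpperHalfPlane ModularForm MatrixGroups EisensteinSeries Polynomial SlashInvariantForm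
open Fermat.Agent.S23

/-- The bivariate polynomial `Σ_{i ≤ n} c_i(Y) X^i`. -/
noncomputable def wp11Poly (n : ℕ) (c : ℕ → Polynomial ℂ) : Polynomial (Polynomial ℂ) :=
  ∑ i ∈ Finset.range (n + 1), C (c i) * X ^ i

lemma wp11Poly_coeff (n : ℕ) (c : ℕ → Polynomial ℂ) (i : ℕ) :
    (wp11Poly n c).coeff i = if i ≤ n then c i else 0 := by
  unfold wp11Poly
  rw [finsetSum_coeff]
  simp only [coeff_C_mul_X_pow]
  rw [Finset.sum_ite_eq (Finset.range (n + 1)) i c]
  simp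

lemma wp11Poly_natDegree_le (n : ℕ) (c : ℕ → Polynomial ℂ) : (wp11Poly n c).natDegree ≤ n := by
  rw [natDegree_le_iff_coeff_eq_zero]
  intro i hi
  rw [wp11Poly_coeff, if_neg (by omega)]

lemma wp11Poly_monic (n : ℕ) (c : ℕ → Polynomial ℂ) (hc : c n = 1) : (wp11Poly n c).Monic := by
  have h1 : (wp11Poly n c).coeff n = 1 := by rw [wp11Poly_coeff, if_pos le_rfl, hc]
  exact monic_of_natDegree_le_of_coeff_eq_one n (wp11Poly_natDegree_le n c) h1

lemma wp11Poly_natDegree (n : ℕ) (c : ℕ → Polynomial ℂ) (hc : c n = 1) :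
    (wp11Poly n c).natDegree = n := by
  refine le_antisymm (wp11Poly_natDegree_le n c) ?_
  refine le_natDegree_of_ne_zero ?_
  rw [wp11Poly_coeff, if_pos le_rfl, hc]
  exact one_ne_zero

lemma wp11Poly_map_eval (n : ℕ) (c : ℕ → Polynomial ℂ) (y x : ℂ) :
    ((wp11Poly n c).map (evalRingHom y)).eval x =
      ∑ i ∈ Finset.range (n + 1), (c i).eval y * x ^ i := by
  unfold wp11Poly
  simp [Polynomial.map_sum, eval_finsetSum]

/-- Specialising `Y ↦ J τ` in `χ` gives the polynomial `∏_q (X - F_q(τ) / Δ(τ) ^ M)`. -/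
lemma wp11Poly_map_eq_rootPoly {ι : Type*} [Fintype ι] [DecidableEq ι] (t : ι → ℂ)
    (c : ℕ → Polynomial ℂ) (y : ℂ)
    (hc : ∀ j, j ≤ Fintype.card ι → (rootPoly t).coeff j = (c j).eval y) :
    (wp11Poly (Fintype.card ι) c).map (evalRingHom y) = rootPoly t := by
  ext i
  rw [coeff_map, wp11Poly_coeff]
  by_cases hi : i ≤ Fintype.card ι
  · rw [if_pos hi, coe_evalRingHom, ← hc i hi]
  · rw [if_neg hi, map_zero, coeff_eq_zero_of_natDegree_lt]
    rw [rootPoly_natDegree]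
    omega

lemma wp11_rootPoly_coeff_zero {ι : Type*} [Fintype ι] [DecidableEq ι] (t : ι → ℂ) :
    (rootPoly t).coeff 0 = (-1) ^ Fintype.card ι * ∏ q, t q := by
  rw [coeff_zero_eq_eval_zero]
  unfold rootPoly
  rw [eval_prod]
  simp only [eval_sub, eval_X, eval_C, zero_sub]
  rw [Finset.prod_neg, Finset.card_univ]

/-- Lagrange–Euler certificate for `G / Δ ^ d`, for a given coefficient family `c` of the
characteristic polynomial of `F / Δ ^ M`. -/
theorem wp11_exists_certificate_of_coeffs (N : ℕ) [NeZero N] (M d : ℕ)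
    (F : ModularForm (G0 N) (12 * (M : ℤ))) (G : ModularForm (G0 N) (12 * (d : ℤ)))
    (c : ℕ → Polynomial ℂ)
    (hc : ∀ τ : ℍ, ∀ j, j ≤ Fintype.card (Q N) →
        (rootPoly (fun q : Q N =>
          SlashInvariantForm.quotientFunc F q τ / discriminant τ ^ M)).coeff j =
          (c j).eval (wp4J τ)) :
    ∃ A : Polynomial (Polynomial ℂ),
      ∀ τ : ℍ, (G τ / discriminant τ ^ d) *
            ((Polynomial.derivative (wp11Poly (Fintype.card (Q N)) c)).map
              (Polynomial.evalRingHom (wp4J τ))).eval (F τ / discriminant τ ^ M)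
          = (A.map (Polynomial.evalRingHom (wp4J τ))).eval (F τ / discriminant τ ^ M) := by
  classical
  set n := Fintype.card (Q N) with hn
  -- the power sums
  choose P _ hPeval using fun r : ℕ =>
    wp4_isDeltaPoly_of_isMF (d + M * r) (by push_cast; ring) (wp4_isMF_powerSum G F r)
  set i₀ : Q N := QuotientGroup.mk 1 with hi₀
  have ht0 : ∀ τ : ℍ, quotientFunc F i₀ τ = F τ := fun τ =>
    congrFun (quotientFunc_one (N := N) F) τ
  have hu0 : ∀ τ : ℍ, quotientFunc G i₀ τ = G τ := fun τ =>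
    congrFun (quotientFunc_one (N := N) G) τ
  have hmap : ∀ τ : ℍ, (wp11Poly n c).map (evalRingHom (wp4J τ)) =
      rootPoly (fun q : Q N => quotientFunc F q τ / discriminant τ ^ M) := fun τ =>
    wp11Poly_map_eq_rootPoly _ c (wp4J τ) (hc τ)
  refine ⟨wp11Poly (n - 1) (fun m => ∑ i ∈ Finset.Ioc m n, c i * P (i - 1 - m)), fun τ => ?_⟩
  rw [← derivative_map, hmap τ, wp11Poly_map_eval]
  have hL := lagrange_euler (fun q : Q N => quotientFunc F q τ / discriminant τ ^ M)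
    (fun q : Q N => quotientFunc G q τ / discriminant τ ^ d) i₀
  simp only [ht0, hu0] at hL
  rw [← hL]
  have hnpos : 0 < n := card_Q_pos
  rw [Nat.sub_add_cancel hnpos]
  refine Finset.sum_congr rfl fun m hm => ?_
  congr 1
  rw [eval_finsetSum]
  refine Finset.sum_congr rfl fun i hi => ?_
  rw [eval_mul, hc τ i (Finset.mem_Ioc.mp hi).2]
  congr 1
  -- the power sum
  have h1 := hPeval (i - 1 - m) τ
  have hΔ : discriminant τ ^ (d + M * (i - 1 - m)) ≠ 0 :=
    pow_ne_zero _ (discriminant_ne_zero τ)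
  rw [← mul_right_inj' hΔ, ← h1, Finset.sum_apply, Finset.mul_sum]
  refine Finset.sum_congr rfl fun q _ => ?_
  rw [Pi.mul_apply, Pi.pow_apply, div_pow, ← pow_mul, pow_add]
  have hΔ1 : discriminant τ ^ d ≠ 0 := pow_ne_zero _ (discriminant_ne_zero τ)
  have hΔ2 : discriminant τ ^ (M * (i - 1 - m)) ≠ 0 := pow_ne_zero _ (discriminant_ne_zero τ)
  field_simp

/-- **WP11, uniform version**: ONE characteristic polynomial `χ` of `F / Δ ^ M` over `ℂ[J]`
which has a Lagrange–Euler certificate for EVERY `G / Δ ^ d`. -/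
theorem wp11_exists_charPoly_certificate_all (N : ℕ) [NeZero N] (M : ℕ)
    (F : ModularForm (G0 N) (12 * (M : ℤ))) :
    ∃ χ : Polynomial (Polynomial ℂ),
      χ.Monic ∧ χ.natDegree = Fintype.card (Q N) ∧
      (∀ i, i < Fintype.card (Q N) →
        (χ.coeff i).natDegree + M * i ≤ M * Fintype.card (Q N)) ∧
      (∀ τ : ℍ, (χ.coeff 0).eval (wp4J τ) =
          (-1) ^ Fintype.card (Q N) *
            ∏ q : Q N, (SlashInvariantForm.quotientFunc F q τ / discriminant τ ^ M)) ∧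
      (∀ τ : ℍ, (χ.map (Polynomial.evalRingHom (wp4J τ))).eval
          (F τ / discriminant τ ^ M) = 0) ∧
      ∀ (d : ℕ) (G : ModularForm (G0 N) (12 * (d : ℤ))), ∃ A : Polynomial (Polynomial ℂ),
        ∀ τ : ℍ, (G τ / discriminant τ ^ d) *
            ((Polynomial.derivative χ).map (Polynomial.evalRingHom (wp4J τ))).eval
              (F τ / discriminant τ ^ M)
          = (A.map (Polynomial.evalRingHom (wp4J τ))).eval (F τ / discriminant τ ^ M) := by
  classical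
  set n := Fintype.card (Q N) with hn
  obtain ⟨c, hdeg, hone, hc⟩ := wp4_exists_charPoly N M F
  set i₀ : Q N := QuotientGroup.mk 1 with hi₀
  have ht0 : ∀ τ : ℍ, quotientFunc F i₀ τ = F τ := fun τ =>
    congrFun (quotientFunc_one (N := N) F) τ
  have hmap : ∀ τ : ℍ, (wp11Poly n c).map (evalRingHom (wp4J τ)) =
      rootPoly (fun q : Q N => quotientFunc F q τ / discriminant τ ^ M) := fun τ =>
    wp11Poly_map_eq_rootPoly _ c (wp4J τ) (hc τ)
  refine ⟨wp11Poly n c, wp11Poly_monic n c hone, wp11Poly_natDegree n c hone, ?_, ?_, ?_,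
    fun d G => wp11_exists_certificate_of_coeffs N M d F G c hc⟩
  · intro i hi
    rw [wp11Poly_coeff, if_pos hi.le]
    have h1 : (c i).natDegree ≤ M * (n - i) := hdeg i hi.le
    have h2 : M * (n - i) + M * i = M * n := by
      rw [← Nat.mul_add, Nat.sub_add_cancel hi.le]
    calc (c i).natDegree + M * i ≤ M * (n - i) + M * i := Nat.add_le_add_right h1 _
      _ = M * n := h2
  · intro τ
    rw [wp11Poly_coeff, if_pos (Nat.zero_le _), ← hc τ 0 (Nat.zero_le _),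
      wp11_rootPoly_coeff_zero]
  · intro τ
    rw [hmap τ]
    have := rootPoly_eval_root (fun q : Q N => quotientFunc F q τ / discriminant τ ^ M) i₀
    simpa only [ht0] using this

/-- **WP11**: characteristic polynomial of `F / Δ ^ M` over `ℂ[J]` together with the
Lagrange–Euler certificate for `G / Δ ^ d`. -/
theorem wp11_exists_charPoly_certificate (N : ℕ) [NeZero N] (M d : ℕ)
    (F : ModularForm (G0 N) (12 * (M : ℤ))) (G : ModularForm (G0 N) (12 * (d : ℤ))) :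
    ∃ (χ A : Polynomial (Polynomial ℂ)),
      χ.Monic ∧ χ.natDegree = Fintype.card (Q N) ∧
      (∀ i, i < Fintype.card (Q N) →
        (χ.coeff i).natDegree + M * i ≤ M * Fintype.card (Q N)) ∧
      (∀ τ : ℍ, (χ.coeff 0).eval (wp4J τ) =
          (-1) ^ Fintype.card (Q N) *
            ∏ q : Q N, (SlashInvariantForm.quotientFunc F q τ / discriminant τ ^ M)) ∧
      (∀ τ : ℍ, (χ.map (Polynomial.evalRingHom (wp4J τ))).eval
          (F τ / discriminant τ ^ M) = 0) ∧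
      (∀ τ : ℍ, (G τ / discriminant τ ^ d) *
            ((Polynomial.derivative χ).map (Polynomial.evalRingHom (wp4J τ))).eval
              (F τ / discriminant τ ^ M)
          = (A.map (Polynomial.evalRingHom (wp4J τ))).eval (F τ / discriminant τ ^ M)) := by
  obtain ⟨χ, h1, h2, h3, h4, h5, h6⟩ := wp11_exists_charPoly_certificate_all N M F
  obtain ⟨A, hA⟩ := h6 d G
  exact ⟨χ, A, h1, h2, h3, h4, h5, hA⟩

end Fermat.Agent.S28
end MergeWrap_S28_Certificate

section MergeWrap_S28_ThmACore -- from S28/ThmACore.lean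

set_option autoImplicit false

namespace Fermat.Agent.S28

open UpperHalfPlane ModularForm MatrixGroups EisensteinSeries Polynomial SlashInvariantForm
open Fermat.Agent.S23 ModularCurve
open Fermat.Agent.S28.QExp

/-- The two `j`-functions agree. -/
lemma thmA_wp4J_eq_jFun : wp4J = jFun := rfl

/-- `toC jq` is the Prelude's `jq` with complex coefficients. -/
lemma thmA_toC_jq : toC jq = jqModC ℂ := by
  rw [← jqModC_rat]
  exact coeffMap_jqModC (algebraMap ℚ ℂ)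

/-- `toC (j(q^d))`. -/
lemma thmA_toC_qExpand_jq (d : ℕ) [NeZero d] : toC (qExpand ℚ d jq) = jqNModC ℂ d := by
  show coeffMap (algebraMap ℚ ℂ) (qExpand ℚ d jq) = _
  rw [coeffMap_qExpand, jqNModC]
  congr 1
  exact thmA_toC_jq

/-- `j` has expansion `toC jq`. -/
theorem thmA_hasQ_wp4J : HasQ wp4J (toC jq) := by
  rw [thmA_toC_jq, thmA_wp4J_eq_jFun]
  exact hasQ_jFun

/-- `heckeDiagMatrix d • τ = d τ`. -/
lemma thmA_heckeDiag_smul (d : ℕ) [NeZero d] (τ : ℍ) : heckeDiagMatrix d • τ = mulUH d τ := by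
  apply UpperHalfPlane.ext
  rw [coe_heckeDiagMatrix_smul (NeZero.ne d), coe_mulUH]

/-- `j(dτ)` has expansion `toC (j(q^d))`. -/
theorem thmA_hasQ_jd (d : ℕ) [NeZero d] :
    HasQ (fun τ => wp4J (heckeDiagMatrix d • τ)) (toC (qExpand ℚ d jq)) := by
  rw [thmA_toC_qExpand_jq]
  exact (hasQ_jFun_comp d).congr fun τ => by rw [thmA_heckeDiag_smul]; rfl

/-- Univariate polynomial evaluation, in terms of `evJ`. -/
theorem thmA_hasQ_evJ {J : ℍ → ℂ} {j : LaurentSeries ℂ} (hJ : HasQ J j) (p : Polynomial ℂ) :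
    HasQ (fun τ => p.eval (J τ)) (evJ j p) := by
  have h := hJ.aeval p
  rwa [← pev1_apply, pev1_eq_evJ] at h

/-- Bivariate polynomial evaluation: `P(J τ, U τ)` has expansion `P(j, u)`. -/
theorem thmA_hasQ_biv {J U : ℍ → ℂ} {j u : LaurentSeries ℂ} (hJ : HasQ J j) (hU : HasQ U u)
    (P : Polynomial (Polynomial ℂ)) :
    HasQ (fun τ => (P.map (evalRingHom (J τ))).eval (U τ)) (P.eval₂ (evJ j) u) := by
  induction P using Polynomial.induction_on' with
  | add p q hp hq =>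
    rw [Polynomial.eval₂_add]
    exact (hp.add hq).congr fun τ => by simp
  | monomial n a =>
    rw [Polynomial.eval₂_monomial]
    exact ((thmA_hasQ_evJ hJ a).mul (hU.pow n)).congr fun τ => by simp

/-- The order of `toC jq`. -/
lemma thmA_ordV_toC_jq : ordV ℂ (toC jq) = ((-1 : ℤ) : WithTop ℤ) := by
  rw [HahnSeries.addVal_apply]
  refine HahnSeries.orderTop_eq_of_le ?_ fun g hg => ?_
  · rw [HahnSeries.mem_support]
    simp [toC, coeffMap_coeff]
  · by_contra hlt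
    rw [not_le] at hlt
    rw [HahnSeries.mem_support] at hg
    apply hg
    show (toC jq).coeff g = 0
    rw [toC, coeffMap_coeff, coeff_jq_of_lt hlt, map_zero]

/-- **Theorem A, conditional form.**  Inputs: the modular unit `W` with its formal expansion `u`,
the norm identity and the forms `v_d`. -/
theorem thmA_of_inputs (N : ℕ) [NeZero N] (φ : ℕ) (hφ : 0 < φ)
    (W : ModularForm (G0 N) (12 * (φ : ℤ)))
    (u : LaurentSeries ℚ)
    (hu : IsMonicUnitSeries u (((φ * (Fintype.card (Q N) - 1) : ℕ) : ℤ)))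
    (hWu : HasQ (fun τ => W τ / discriminant τ ^ φ) (toC u))
    (hmain : ∃ C : ℂ, IsNUnit N ‖C‖ ∧ ∀ τ : ℍ,
      ∏ q : Q N, quotientFunc W q τ = C * discriminant τ ^ (φ * Fintype.card (Q N)))
    (hvd : ∀ d : ℕ, d ∣ N → ∃ v : ModularForm (G0 N) (12 * (d : ℤ)), ∀ τ : ℍ,
      v τ = E₄ (heckeDiagMatrix d • τ) ^ 3 * discriminant τ ^ d /
        discriminant (heckeDiagMatrix d • τ)) :
    ThmAStatement N := by
  classical
  set n := Fintype.card (Q N) with hn
  obtain ⟨χ, hmonic, hdeg, hbound, hconst, hroot, hcert⟩ :=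
    wp11_exists_charPoly_certificate_all N φ W
  obtain ⟨C, hC, hnorm⟩ := hmain
  obtain ⟨a, b, ha, hb, hpa, hpb, hab⟩ := hC
  have hJ := thmA_hasQ_wp4J
  -- the constant term
  have hc0 : ∀ τ : ℍ, (χ.coeff 0).eval (wp4J τ) = (-1) ^ n * C := by
    intro τ
    rw [hconst τ, Finset.prod_div_distrib, hnorm τ, Finset.prod_const, Finset.card_univ,
      ← pow_mul, ← hn, mul_div_assoc, div_self (pow_ne_zero _ (discriminant_ne_zero τ)),
      mul_one]
  have hcoeff0 : χ.coeff 0 = Polynomial.C ((-1) ^ n * C) := by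
    have h1 := thmA_hasQ_evJ hJ (χ.coeff 0 - Polynomial.C ((-1) ^ n * C))
    have h2 := h1.eq_zero fun τ => by
      rw [eval_sub, eval_C, hc0 τ, sub_self]
    have h3 := evJ_injective (toC jq) thmA_ordV_toC_jq (h2.trans (map_zero _).symm)
    exact sub_eq_zero.mp h3
  refine ⟨n, φ, u, χ, (-1) ^ n * C, a, b, hφ, hu, hmonic, hdeg, hbound, ?_, hcoeff0, ha, hb,
    ?_, ?_, ?_⟩
  · -- the root
    exact (thmA_hasQ_biv hJ hWu χ).eq_zero hroot
  · intro p hp hpab
    rcases (Nat.Prime.dvd_mul hp).mp hpab with h | h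
    exacts [hpa p hp h, hpb p hp h]
  · rw [norm_mul, norm_pow, norm_neg, norm_one, one_pow, one_mul, hab]
    have hb0 : (b : ℝ) ≠ 0 := by positivity
    field_simp
  · -- the certificates
    intro d hd0 hdN
    obtain ⟨v, hv⟩ := hvd d hdN
    obtain ⟨A, hA⟩ := hcert d v
    refine ⟨A, ?_⟩
    have hL := (thmA_hasQ_jd d).mul (thmA_hasQ_biv hJ hWu (derivative χ))
    have hR := thmA_hasQ_biv hJ hWu A
    refine hL.eq_of_eq hR fun τ => ?_
    rw [Pi.mul_apply, ← hA τ]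
    congr 1
    rw [hv τ, wp4J]
    have h1 := discriminant_ne_zero τ
    have h2 := discriminant_ne_zero (heckeDiagMatrix d • τ)
    field_simp

end Fermat.Agent.S28
end MergeWrap_S28_ThmACore

section MergeWrap_S28_ThmAUnit -- from S28/ThmAUnit.lean

set_option autoImplicit false

namespace Fermat.Agent.S28

open UpperHalfPlane ModularForm MatrixGroups Polynomial
open Fermat.Agent.S23 ModularCurve
open Fermat.Agent.S28.QExp

/-- The formal `Δ(q^δ)` over `ℂ`, made total in `δ` (value `1` for `δ = 0`). -/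
noncomputable def thmA_deltaAt (δ : ℕ) : LaurentSeries ℂ :=
  if h : δ = 0 then 1 else haveI : NeZero δ := ⟨h⟩; qExpand ℂ δ deltaC

lemma thmA_deltaAt_of_ne_zero (δ : ℕ) [NeZero δ] : thmA_deltaAt δ = qExpand ℂ δ deltaC := by
  unfold thmA_deltaAt
  rw [dif_neg (NeZero.ne δ)]

lemma thmA_deltaAt_one : thmA_deltaAt 1 = deltaC := by
  rw [thmA_deltaAt_of_ne_zero, qExpand_one_apply]

/-- `Δ(δτ)^e` has expansion `Δ(q^δ)^e`. -/
theorem thmA_hasQ_dDelta_zpow {δ : ℕ} (hδ : δ ≠ 0) (e : ℤ) :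
    HasQ (fun τ => dDelta δ τ ^ e) (thmA_deltaAt δ ^ e) := by
  have : NeZero δ := ⟨hδ⟩
  rw [thmA_deltaAt_of_ne_zero]
  exact (hasQ_discriminant_comp_zpow δ e).congr fun τ => by
    rw [dDelta, thmA_heckeDiag_smul]

/-- A Δ-quotient `∏_{δ ∈ S} Δ(δτ)^{m δ}` has expansion `∏_{δ ∈ S} Δ(q^δ)^{m δ}`. -/
theorem thmA_hasQ_deltaQuot (S : Finset ℕ) (m : ℕ → ℤ) (hS : ∀ δ ∈ S, δ ≠ 0) :
    HasQ (deltaQuot S m) (∏ δ ∈ S, thmA_deltaAt δ ^ m δ) := by
  have h := HasQ.prod S (f := fun δ τ => dDelta δ τ ^ m δ) (s := fun δ => thmA_deltaAt δ ^ m δ)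
    fun δ hδ => thmA_hasQ_dDelta_zpow (hS δ hδ) (m δ)
  refine h.congr fun τ => ?_
  simp [deltaQuot, Finset.prod_apply]

/-- `f / Δ^φ`. -/
theorem thmA_hasQ_div_discriminant_pow {f : ℍ → ℂ} {s : LaurentSeries ℂ} (hf : HasQ f s)
    (φ : ℕ) : HasQ (fun τ => f τ / discriminant τ ^ φ) (s * deltaInvC ^ φ) := by
  refine (hf.mul (hasQ_inv_discriminant.pow φ)).congr fun τ => ?_
  simp [div_eq_mul_inv]

/-- The expansion of `W / Δ^φ` for a form `W` whose underlying function is a Δ-quotient. -/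
theorem thmA_hasQ_unit (S : Finset ℕ) (m : ℕ → ℤ) (hS : ∀ δ ∈ S, δ ≠ 0) (φ : ℕ)
    {W : ℍ → ℂ} (hW : W = deltaQuot S m) :
    HasQ (fun τ => W τ / discriminant τ ^ φ)
      ((∏ δ ∈ S, thmA_deltaAt δ ^ m δ) * deltaInvC ^ φ) := by
  subst hW
  exact thmA_hasQ_div_discriminant_pow (thmA_hasQ_deltaQuot S m hS) φ

end Fermat.Agent.S28
end MergeWrap_S28_ThmAUnit

section MergeWrap_S28_ThmAFormal -- from S28/ThmAFormal.lean

set_option autoImplicit false

namespace Fermat.Agent.S28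

open Polynomial
open Fermat.Agent.S23 ModularCurve
open Fermat.Agent.S28.QExp

/-! ### Closure properties of `IsMonicUnitSeries` -/

lemma thmA_single_mul_single (a b : ℤ) :
    (HahnSeries.single a (1 : ℚ) : LaurentSeries ℚ) * HahnSeries.single b 1 =
      HahnSeries.single (a + b) 1 := by
  rw [HahnSeries.single_mul_single, one_mul]

lemma thmA_single_zero_one : (HahnSeries.single (0 : ℤ) (1 : ℚ) : LaurentSeries ℚ) = 1 := rfl

lemma isMonicUnitSeries_one : IsMonicUnitSeries 1 0 :=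
  ⟨1, by simp, by simp⟩

lemma IsMonicUnitSeries.mul {x y : LaurentSeries ℚ} {a b : ℤ} (hx : IsMonicUnitSeries x a)
    (hy : IsMonicUnitSeries y b) : IsMonicUnitSeries (x * y) (a + b) := by
  obtain ⟨E, hE, rfl⟩ := hx
  obtain ⟨F, hF, rfl⟩ := hy
  refine ⟨E * F, by rw [map_mul, hE, hF, mul_one], ?_⟩
  rw [map_mul, map_mul, ← thmA_single_mul_single]
  ring

lemma IsMonicUnitSeries.inv {x : LaurentSeries ℚ} {a : ℤ} (hx : IsMonicUnitSeries x a) :
    IsMonicUnitSeries x⁻¹ (-a) := by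
  obtain ⟨E, hE, rfl⟩ := hx
  refine ⟨E.invOfUnit 1, by rw [PowerSeries.constantCoeff_invOfUnit]; simp, ?_⟩
  refine inv_eq_of_mul_eq_one_right ?_
  have h1 : E * E.invOfUnit 1 = 1 := PowerSeries.mul_invOfUnit E 1 (by rw [hE]; rfl)
  rw [mul_mul_mul_comm, thmA_single_mul_single, add_neg_cancel, ← map_mul, ← map_mul, h1,
    (PowerSeries.map (Int.castRingHom ℚ)).map_one, (HahnSeries.ofPowerSeries ℤ ℚ).map_one,
    mul_one]
  rfl

lemma IsMonicUnitSeries.pow {x : LaurentSeries ℚ} {a : ℤ} (hx : IsMonicUnitSeries x a) (n : ℕ) :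
    IsMonicUnitSeries (x ^ n) (n * a) := by
  induction n with
  | zero => simpa using isMonicUnitSeries_one
  | succ n ih =>
    rw [pow_succ]
    have := ih.mul hx
    convert this using 1
    push_cast
    ring

lemma IsMonicUnitSeries.zpow {x : LaurentSeries ℚ} {a : ℤ} (hx : IsMonicUnitSeries x a) (n : ℤ) :
    IsMonicUnitSeries (x ^ n) (n * a) := by
  obtain ⟨k, rfl | rfl⟩ := Int.eq_nat_or_neg n
  · rw [zpow_natCast]
    exact hx.pow k
  · rw [zpow_neg, zpow_natCast]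
    have := (hx.pow k).inv
    convert this using 1
    ring

lemma IsMonicUnitSeries.prod {ι : Type*} (s : Finset ι) (x : ι → LaurentSeries ℚ) (a : ι → ℤ)
    (h : ∀ i ∈ s, IsMonicUnitSeries (x i) (a i)) :
    IsMonicUnitSeries (∏ i ∈ s, x i) (∑ i ∈ s, a i) := by
  classical
  induction s using Finset.induction_on with
  | empty => simpa using isMonicUnitSeries_one
  | insert i s hi ih =>
    rw [Finset.prod_insert hi, Finset.sum_insert hi]
    exact (h i (Finset.mem_insert_self i s)).mul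
      (ih fun j hj => h j (Finset.mem_insert_of_mem hj))

/-- The power series `E(X^d)` over `ℤ`. -/
noncomputable def thmA_psExpandZ (d : ℕ) (E : PowerSeries ℤ) : PowerSeries ℤ :=
  PowerSeries.mk fun m => if d ∣ m then E.coeff (m / d) else 0

lemma thmA_constantCoeff_psExpandZ (d : ℕ) (E : PowerSeries ℤ) :
    PowerSeries.constantCoeff (thmA_psExpandZ d E) = PowerSeries.constantCoeff E := by
  rw [← PowerSeries.coeff_zero_eq_constantCoeff_apply, thmA_psExpandZ, PowerSeries.coeff_mk,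
    if_pos (dvd_zero d), Nat.zero_div, PowerSeries.coeff_zero_eq_constantCoeff_apply]

lemma thmA_ofPowerSeries_psExpandZ (d : ℕ) [NeZero d] (E : PowerSeries ℤ) :
    HahnSeries.ofPowerSeries ℤ ℚ ((thmA_psExpandZ d E).map (Int.castRingHom ℚ)) =
      qExpand ℚ d (HahnSeries.ofPowerSeries ℤ ℚ (E.map (Int.castRingHom ℚ))) := by
  ext k
  by_cases hk : (d : ℤ) ∣ k
  · obtain ⟨j, rfl⟩ := hk
    rw [qExpand_coeff_mul]
    rcases le_or_gt 0 j with hj | hj
    · lift j to ℕ using hj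
      rw [show (d : ℤ) * (j : ℤ) = ((d * j : ℕ) : ℤ) by push_cast; rfl,
        HahnSeries.ofPowerSeries_apply_coeff, HahnSeries.ofPowerSeries_apply_coeff,
        PowerSeries.coeff_map, PowerSeries.coeff_map, thmA_psExpandZ, PowerSeries.coeff_mk,
        if_pos (dvd_mul_right d j),
        Nat.mul_div_cancel_left _ (Nat.pos_of_ne_zero (NeZero.ne d))]
    · have hd : (0 : ℤ) < d := by exact_mod_cast Nat.pos_of_ne_zero (NeZero.ne d)
      rw [ofPowerSeries_coeff_of_neg _ (mul_neg_of_pos_of_neg hd hj),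
        ofPowerSeries_coeff_of_neg _ hj]
  · rw [qExpand_coeff_of_not_dvd _ _ hk]
    rcases le_or_gt 0 k with hk0 | hk0
    · lift k to ℕ using hk0
      rw [HahnSeries.ofPowerSeries_apply_coeff, PowerSeries.coeff_map, thmA_psExpandZ,
        PowerSeries.coeff_mk, if_neg, map_zero]
      exact fun h => hk (by exact_mod_cast h)
    · exact ofPowerSeries_coeff_of_neg _ hk0

lemma IsMonicUnitSeries.qExpand {x : LaurentSeries ℚ} {a : ℤ} (hx : IsMonicUnitSeries x a)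
    (d : ℕ) [NeZero d] : IsMonicUnitSeries (qExpand ℚ d x) ((d : ℤ) * a) := by
  obtain ⟨E, hE, rfl⟩ := hx
  refine ⟨thmA_psExpandZ d E, by rw [thmA_constantCoeff_psExpandZ, hE], ?_⟩
  rw [map_mul, qExpand_single, thmA_ofPowerSeries_psExpandZ]

/-! ### The formal `Δ` over `ℚ` -/

/-- The formal `Δ = q ∏ (1 - qⁿ)²⁴` over `ℚ`. -/
noncomputable def thmA_deltaQ : LaurentSeries ℚ :=
  HahnSeries.single (1 : ℤ) 1 *
    HahnSeries.ofPowerSeries ℤ ℚ (PowerSeries.map (Int.castRingHom ℚ) dedekindEtaUnit)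

lemma isMonicUnitSeries_deltaQ : IsMonicUnitSeries thmA_deltaQ 1 :=
  ⟨dedekindEtaUnit, constantCoeff_dedekindEtaUnit, rfl⟩

lemma thmA_toC_deltaQ : toC thmA_deltaQ = deltaC := by
  unfold thmA_deltaQ deltaC
  rw [map_mul]
  show coeffMap (algebraMap ℚ ℂ) _ * coeffMap (algebraMap ℚ ℂ) _ = _
  rw [coeffMap_single, map_one, coeffMap_ofPowerSeries,
    ← RingHom.comp_apply (PowerSeries.map (algebraMap ℚ ℂ)) (PowerSeries.map (Int.castRingHom ℚ)),
    ← PowerSeries.map_comp,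
    RingHom.ext_int ((algebraMap ℚ ℂ).comp (Int.castRingHom ℚ)) (Int.castRingHom ℂ)]

/-- The formal `Δ(q^δ)` over `ℚ`, total in `δ`. -/
noncomputable def thmA_deltaAtQ (δ : ℕ) : LaurentSeries ℚ :=
  if h : δ = 0 then 1 else haveI : NeZero δ := ⟨h⟩; qExpand ℚ δ thmA_deltaQ

lemma thmA_deltaAtQ_of_ne_zero (δ : ℕ) [NeZero δ] :
    thmA_deltaAtQ δ = qExpand ℚ δ thmA_deltaQ := by
  unfold thmA_deltaAtQ
  rw [dif_neg (NeZero.ne δ)]

lemma isMonicUnitSeries_deltaAtQ {δ : ℕ} (hδ : δ ≠ 0) :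
    IsMonicUnitSeries (thmA_deltaAtQ δ) (δ : ℤ) := by
  have : NeZero δ := ⟨hδ⟩
  rw [thmA_deltaAtQ_of_ne_zero]
  simpa using isMonicUnitSeries_deltaQ.qExpand δ

lemma thmA_toC_deltaAtQ (δ : ℕ) : toC (thmA_deltaAtQ δ) = thmA_deltaAt δ := by
  by_cases hδ : δ = 0
  · subst hδ
    simp [thmA_deltaAtQ, thmA_deltaAt]
  · have : NeZero δ := ⟨hδ⟩
    rw [thmA_deltaAtQ_of_ne_zero, thmA_deltaAt_of_ne_zero]
    show coeffMap (algebraMap ℚ ℂ) (qExpand ℚ δ thmA_deltaQ) = _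
    rw [coeffMap_qExpand]
    congr 1
    exact thmA_toC_deltaQ

/-! ### The formal unit -/

/-- The formal Δ-quotient `(∏_{δ ∈ S} Δ(q^δ)^{m δ}) · Δ^{-φ}` over `ℚ`. -/
noncomputable def thmA_formalQuot (S : Finset ℕ) (m : ℕ → ℤ) (φ : ℕ) : LaurentSeries ℚ :=
  (∏ δ ∈ S, thmA_deltaAtQ δ ^ m δ) * (thmA_deltaQ⁻¹) ^ φ

lemma thmA_toC_formalQuot (S : Finset ℕ) (m : ℕ → ℤ) (φ : ℕ) :
    toC (thmA_formalQuot S m φ) = (∏ δ ∈ S, thmA_deltaAt δ ^ m δ) * deltaInvC ^ φ := by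
  unfold thmA_formalQuot
  rw [map_mul, map_prod, map_pow, map_inv₀, thmA_toC_deltaQ, deltaInvC_eq_inv]
  congr 1
  refine Finset.prod_congr rfl fun δ _ => ?_
  rw [map_zpow₀, thmA_toC_deltaAtQ]

lemma isMonicUnitSeries_formalQuot (S : Finset ℕ) (m : ℕ → ℤ) (φ : ℕ) (hS : ∀ δ ∈ S, δ ≠ 0) :
    IsMonicUnitSeries (thmA_formalQuot S m φ) ((∑ δ ∈ S, m δ * (δ : ℤ)) - φ) := by
  unfold thmA_formalQuot
  have h1 := IsMonicUnitSeries.prod S (fun δ => thmA_deltaAtQ δ ^ m δ) (fun δ => m δ * (δ : ℤ))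
    fun δ hδ => (isMonicUnitSeries_deltaAtQ (hS δ hδ)).zpow (m δ)
  have h2 := (isMonicUnitSeries_deltaQ.inv).pow φ
  have := h1.mul h2
  convert this using 1
  ring

/-- The formal canonical unit `u_N`. -/
noncomputable def thmA_formalU (N : ℕ) : LaurentSeries ℚ :=
  thmA_formalQuot (unitSet N) (unitM N) (unitPhi N)

lemma isMonicUnitSeries_formalU (N : ℕ) (hN : N ≠ 0) :
    IsMonicUnitSeries (thmA_formalU N) (unitE N - unitPhi N) :=
  isMonicUnitSeries_formalQuot _ _ _ fun _ hδ => wp3b_ne_zero_of_mem_unitSet hN hδ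

end Fermat.Agent.S28
end MergeWrap_S28_ThmAFormal
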