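import Fermat.Agent.MU.S28.DeltaQuotDefs
import Fermat.Agent.MU.S23.ThetaDef
import Fermat.Agent.MU.S28.UnitOrd
import Fermat.Agent.MU.S28.LevelOneUnit
import Fermat.Agent.S23.Esymm
import Fermat.Agent.MU.S28.ThmAFormal

section MergeWrap_S28_DeltaQuotHolo -- from S28/DeltaQuotHolo.lean

/-!
# S28, WP3 (helper31): Δ-quotients are holomorphic on `ℍ`
-/

set_option autoImplicit false

namespace Fermat.Agent.S28

open UpperHalfPlane hiding I
open ModularForm Filter Complex MatrixGroups Topology SlashInvariantForm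
open scoped Real Manifold

lemma wp3b_heckeDiagMatrix_zero : heckeDiagMatrix 0 = 1 := by simp [heckeDiagMatrix]

/-- `τ ↦ Δ(δ τ)` is holomorphic. -/
lemma mdifferentiable_dDelta (δ : ℕ) : MDifferentiable 𝓘(ℂ) 𝓘(ℂ) (dDelta δ) := by
  rcases Nat.eq_zero_or_pos δ with rfl | hδ
  · have : dDelta 0 = ⇑CuspForm.discriminant := by
      funext τ
      simp [dDelta]
    rw [this]
    exact CuspForm.discriminant.holo'
  · have hδ0 : δ ≠ 0 := hδ.ne'
    have hδC : ((δ : ℂ) ^ ((12 : ℤ) - 1)) ≠ 0 := zpow_ne_zero _ (by exact_mod_cast hδ0)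
    have h1 : dDelta δ = fun τ => ((δ : ℂ) ^ ((12 : ℤ) - 1))⁻¹ *
        (⇑CuspForm.discriminant ∣[(12 : ℤ)] heckeDiagMatrix δ) τ := by
      funext τ
      rw [slash_heckeDiagMatrix_apply 12 hδ0, ← mul_assoc, inv_mul_cancel₀ hδC, one_mul]
      rfl
    rw [h1]
    have h2 : MDifferentiable 𝓘(ℂ) 𝓘(ℂ)
        (⇑CuspForm.discriminant ∣[(12 : ℤ)] heckeDiagMatrix δ) :=
      (CuspForm.translate CuspForm.discriminant (heckeDiagMatrix δ)).holo'
    exact (mdifferentiable_const (c := ((δ : ℂ) ^ ((12 : ℤ) - 1))⁻¹)).mul h2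

/-- Integer powers of a nowhere vanishing holomorphic function are holomorphic. -/
lemma wp3b_mdifferentiable_zpow {f : ℍ → ℂ} (hf : MDifferentiable 𝓘(ℂ) 𝓘(ℂ) f)
    (hf0 : ∀ τ, f τ ≠ 0) (m : ℤ) : MDifferentiable 𝓘(ℂ) 𝓘(ℂ) (fun τ => f τ ^ m) := by
  obtain ⟨k, rfl | rfl⟩ := Int.eq_nat_or_neg m
  · have h0 : (fun τ => f τ ^ ((k : ℕ) : ℤ)) = f ^ k := by
      funext τ; simp
    rw [h0]
    exact hf.pow k
  · have h1 : (fun τ => f τ ^ (-(k : ℤ))) = fun τ => (f τ ^ k)⁻¹ := by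
      funext τ; rw [zpow_neg, zpow_natCast]
    rw [h1]
    have h2 : (fun τ => (f τ ^ k)⁻¹) = (f ^ k)⁻¹ := by
      funext τ; simp
    rw [h2]
    exact (hf.pow k).inv fun τ => by simpa using pow_ne_zero k (hf0 τ)

/-- A Δ-quotient is holomorphic on `ℍ`. -/
theorem mdifferentiable_deltaQuot (S : Finset ℕ) (m : ℕ → ℤ) :
    MDifferentiable 𝓘(ℂ) 𝓘(ℂ) (deltaQuot S m) := by
  have h : deltaQuot S m = fun τ => ∏ δ ∈ S, dDelta δ τ ^ m δ := rfl
  rw [h]
  have h2 : (fun τ => ∏ δ ∈ S, dDelta δ τ ^ m δ) = ∏ δ ∈ S, fun τ => dDelta δ τ ^ m δ := by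
    funext τ
    simp [Finset.prod_apply]
  rw [h2]
  exact MDifferentiable.prod
    (fun δ _ => wp3b_mdifferentiable_zpow (mdifferentiable_dDelta δ) (dDelta_ne_zero δ) (m δ))

end Fermat.Agent.S28
end MergeWrap_S28_DeltaQuotHolo

section MergeWrap_S28_DeltaQuot -- from S28/DeltaQuot.lean

set_option autoImplicit false

namespace Fermat.Agent.S28

open UpperHalfPlane hiding I
open ModularForm Filter Complex
open scoped Real Topology MatrixGroups ModularForm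

lemma wp3_det_upper (a b d : ℝ) (had : a * d ≠ 0) :
    ((upperTriangularGL a b d had).det : ℝ) = a * d := by
  rw [Matrix.GeneralLinearGroup.val_det_apply, val_upperTriangularGL, Matrix.det_fin_two_of]
  ring

lemma wp3_denom_upper (a b d : ℝ) (had : a * d ≠ 0) (τ : ℍ) :
    denom (upperTriangularGL a b d had) τ = d := by
  simp [denom, val_upperTriangularGL]

lemma wp3_num_upper (a b d : ℝ) (had : a * d ≠ 0) (τ : ℍ) :
    num (upperTriangularGL a b d had) τ = a * τ + b := by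
  simp [num, val_upperTriangularGL]

/-- Slash of weight `12` by an upper triangular matrix with natural diagonal entries. -/
lemma wp3_slash_upper (f : ℍ → ℂ) (e d : ℕ) (b : ℤ) (hed : (e : ℝ) * (d : ℝ) ≠ 0) (τ : ℍ) :
    (f ∣[(12 : ℤ)] upperTriangularGL (e : ℝ) (b : ℝ) (d : ℝ) hed) τ =
      f (upperTriangularGL (e : ℝ) (b : ℝ) (d : ℝ) hed • τ) * ((e : ℂ) * (d : ℂ)) ^ 11 *
        ((d : ℂ) ^ 12)⁻¹ := by
  have hpos : 0 < ((upperTriangularGL (e : ℝ) (b : ℝ) (d : ℝ) hed).det : ℝ) := by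
    rw [wp3_det_upper]
    have h1 : (0 : ℝ) ≤ (e : ℝ) * (d : ℝ) := by positivity
    exact lt_of_le_of_ne h1 (Ne.symm hed)
  have hσ : UpperHalfPlane.σ (upperTriangularGL (e : ℝ) (b : ℝ) (d : ℝ) hed) = .refl ℝ ℂ := by
    rw [UpperHalfPlane.σ, if_pos hpos]
  rw [ModularForm.slash_apply, hσ, wp3_denom_upper, wp3_det_upper]
  have habs : |(e : ℝ) * (d : ℝ)| = (e : ℝ) * (d : ℝ) := abs_of_nonneg (by positivity)
  rw [habs]
  simp only [ContinuousAlgEquiv.refl_apply]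
  rw [show ((12 : ℤ) - 1) = ((11 : ℕ) : ℤ) by norm_num, zpow_natCast,
    show (-(12 : ℤ)) = -((12 : ℕ) : ℤ) by norm_num, zpow_neg, zpow_natCast]
  push_cast
  ring

/-- `Δ` is invariant under `SL(2,ℤ)` (as elements of `GL(2,ℝ)`). -/
lemma wp3_discriminant_slash (g : SL(2, ℤ)) :
    ModularForm.discriminant ∣[(12 : ℤ)] (g : GL (Fin 2) ℝ) = ModularForm.discriminant := by
  rw [← SL_slash]
  exact SlashInvariantForm.slash_action_generators_SL2Z discriminant_S_invariant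
    discriminant_T_invariant g

lemma wp3_heckeDiagMatrix_eq {δ : ℕ} (hδ : δ ≠ 0) :
    heckeDiagMatrix δ = upperTriangularGL (δ : ℝ) ((0 : ℤ) : ℝ) ((1 : ℕ) : ℝ)
      (by simpa using hδ) := by
  simp [heckeDiagMatrix, hδ]

/-- `dDelta δ` as a scalar multiple of a slash of `Δ`. -/
lemma dDelta_eq_smul_slash {δ : ℕ} (hδ : δ ≠ 0) :
    dDelta δ = (((δ : ℂ) ^ 11)⁻¹ : ℂ) • (discriminant ∣[(12 : ℤ)] heckeDiagMatrix δ) := by
  have hδC : (δ : ℂ) ≠ 0 := by exact_mod_cast hδ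
  funext τ
  rw [Pi.smul_apply, smul_eq_mul]
  have h := wp3_slash_upper discriminant δ 1 0 (by simpa using hδ) τ
  rw [← wp3_heckeDiagMatrix_eq hδ] at h
  rw [h, dDelta]
  simp only [Nat.cast_one, mul_one, one_pow, inv_one]
  field_simp

/-- (G0) slash formula for `τ ↦ Δ(δ τ)` under `SL(2,ℤ)`. -/
theorem dDelta_slash_SL {δ : ℕ} (hδ : δ ≠ 0) (γ : SL(2, ℤ)) :
    ∃ b : ℤ, ∀ τ : ℍ, (dDelta δ ∣[(12 : ℤ)] γ) τ =
      ((wp1E δ γ : ℂ) ^ 12)⁻¹ *
        discriminant (upperTriangularGL (wp1G δ γ) b (wp1E δ γ) (wp1_ne hδ γ) • τ) := by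
  obtain ⟨σ, b, hmat⟩ := wp1_hermite_GL δ hδ γ
  refine ⟨b, fun τ => ?_⟩
  have hδC : (δ : ℂ) ≠ 0 := by exact_mod_cast hδ
  have hprod : ((wp1G δ γ : ℂ) * (wp1E δ γ : ℂ)) = (δ : ℂ) := by
    exact_mod_cast congrArg (Nat.cast : ℕ → ℂ) (wp1G_mul_wp1E δ γ)
  have hE : (wp1E δ γ : ℂ) ≠ 0 := by exact_mod_cast (wp1E_pos hδ γ).ne'
  have hslash : dDelta δ ∣[(12 : ℤ)] γ = (((δ : ℂ) ^ 11)⁻¹ : ℂ) •
      (discriminant ∣[(12 : ℤ)]
        upperTriangularGL (wp1G δ γ) b (wp1E δ γ) (wp1_ne hδ γ)) := by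
    rw [dDelta_eq_smul_slash hδ, SL_smul_slash, SL_slash, ← SlashAction.slash_mul, hmat,
      SlashAction.slash_mul, wp3_discriminant_slash]
  rw [hslash, Pi.smul_apply, smul_eq_mul, wp3_slash_upper, hprod]
  field_simp

/-- Coordinates of `T • τ` for an upper triangular `T` with natural diagonal entries. -/
lemma wp3_coe_upper_smul (g e : ℕ) (b : ℤ) (hne : (g : ℝ) * (e : ℝ) ≠ 0) (τ : ℍ) :
    ((upperTriangularGL (g : ℝ) (b : ℝ) (e : ℝ) hne • τ : ℍ) : ℂ) =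
      ((g : ℂ) * (τ : ℂ) + (b : ℂ)) / (e : ℂ) := by
  have hpos : 0 < ((upperTriangularGL (g : ℝ) (b : ℝ) (e : ℝ) hne).det : ℝ) := by
    rw [wp3_det_upper]
    have h1 : (0 : ℝ) ≤ (g : ℝ) * (e : ℝ) := by positivity
    exact lt_of_le_of_ne h1 (Ne.symm hne)
  rw [coe_smul_of_det_pos hpos, wp3_denom_upper, wp3_num_upper]
  push_cast
  rfl

lemma wp3_qParam_upper (g e : ℕ) (b : ℤ) (hne : (g : ℝ) * (e : ℝ) ≠ 0) (τ : ℍ) :
    Function.Periodic.qParam 1 ((upperTriangularGL (g : ℝ) (b : ℝ) (e : ℝ) hne • τ : ℍ) : ℂ) *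
        cexp (-(2 * π * I * (((g : ℝ) / (e : ℝ) : ℝ) : ℂ) * (τ : ℂ))) =
      cexp (2 * π * I * ((b : ℂ) / (e : ℂ))) := by
  have he : (e : ℂ) ≠ 0 := by
    have : (e : ℝ) ≠ 0 := right_ne_zero_of_mul hne
    exact_mod_cast this
  rw [Function.Periodic.qParam, wp3_coe_upper_smul, ← Complex.exp_add]
  congr 1
  push_cast
  field_simp
  ring

/-- Asymptotics of `Δ(T τ)` at `i∞` for upper triangular `T = (g b; 0 e)`. -/
lemma wp3_tendsto_discriminant_upper (g e : ℕ) (b : ℤ) (hne : (g : ℝ) * (e : ℝ) ≠ 0) :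
    Tendsto (fun τ : ℍ => discriminant (upperTriangularGL (g : ℝ) (b : ℝ) (e : ℝ) hne • τ) *
        cexp (-(2 * π * I * (((g : ℝ) / (e : ℝ) : ℝ) : ℂ) * (τ : ℂ))))
      atImInfty (𝓝 (cexp (2 * π * I * ((b : ℂ) / (e : ℂ))))) := by
  have h0 : (upperTriangularGL (g : ℝ) (b : ℝ) (e : ℝ) hne) 1 0 = 0 := by
    simp [val_upperTriangularGL]
  have h1 := tendsto_discriminant_div_qParam.comp (UpperHalfPlane.tendsto_smul_atImInfty h0)
  have h2 := h1.mul_const (cexp (2 * π * I * ((b : ℂ) / (e : ℂ))))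
  rw [one_mul] at h2
  refine h2.congr fun τ => ?_
  have hq := wp2_qParam_one_ne_zero (upperTriangularGL (g : ℝ) (b : ℝ) (e : ℝ) hne • τ)
  have hk := wp3_qParam_upper g e b hne τ
  simp only [Function.comp_apply]
  rw [← hk]
  field_simp

/-- Limit at `i∞` of the translates of `τ ↦ Δ(δ τ)`. -/
lemma wp3_tendsto_dDelta_slash {δ : ℕ} (hδ : δ ≠ 0) (γ : SL(2, ℤ)) :
    ∃ κ : ℂ, ‖κ‖ = ((wp1E δ γ : ℝ) ^ 12)⁻¹ ∧
      Tendsto (fun τ : ℍ => (dDelta δ ∣[(12 : ℤ)] γ) τ *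
        cexp (-(2 * π * I * ((((wp1G δ γ : ℝ) ^ 2 / (δ : ℝ) : ℝ)) : ℂ) * (τ : ℂ))))
        atImInfty (𝓝 κ) := by
  obtain ⟨b, hb⟩ := dDelta_slash_SL hδ γ
  have hg : (wp1G δ γ : ℝ) ≠ 0 := by exact_mod_cast (wp1G_pos hδ γ).ne'
  have he : (wp1E δ γ : ℝ) ≠ 0 := by exact_mod_cast (wp1E_pos hδ γ).ne'
  have hprod : (wp1G δ γ : ℝ) * (wp1E δ γ : ℝ) = (δ : ℝ) := by
    exact_mod_cast congrArg (Nat.cast : ℕ → ℝ) (wp1G_mul_wp1E δ γ)
  have hord : (wp1G δ γ : ℝ) ^ 2 / (δ : ℝ) = (wp1G δ γ : ℝ) / (wp1E δ γ : ℝ) := by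
    rw [← hprod]
    field_simp
  refine ⟨((wp1E δ γ : ℂ) ^ 12)⁻¹ * cexp (2 * π * I * ((b : ℂ) / (wp1E δ γ : ℂ))), ?_, ?_⟩
  · rw [norm_mul, norm_inv, norm_pow, Complex.norm_natCast]
    have : ‖cexp (2 * π * I * ((b : ℂ) / (wp1E δ γ : ℂ)))‖ = 1 := by
      rw [Complex.norm_exp]
      simp
    rw [this, mul_one]
  · have h := (wp3_tendsto_discriminant_upper (wp1G δ γ) (wp1E δ γ) b (wp1_ne hδ γ)).const_mul
      (((wp1E δ γ : ℂ) ^ 12)⁻¹)
    refine h.congr fun τ => ?_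
    rw [hb τ, hord, mul_assoc]
    ring_nf

/-- `∏ a ^ f i = a ^ ∑ f i` for integer exponents. -/
lemma wp3_prod_zpow {ι : Type*} (S : Finset ι) (a : ℂ) (ha : a ≠ 0) (f : ι → ℤ) :
    ∏ i ∈ S, a ^ f i = a ^ ∑ i ∈ S, f i := by
  classical
  induction S using Finset.induction_on with
  | empty => simp
  | insert i t hi IH => rw [Finset.prod_insert hi, Finset.sum_insert hi, IH, zpow_add₀ ha]

variable {ι : Type*}

/-- Pointwise formula for the translates of a Δ-quotient. -/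
lemma dqFun_slash_apply (S : Finset ι) (δ : ι → ℕ) (m : ι → ℤ) (γ : SL(2, ℤ)) (τ : ℍ) :
    (dqFun S δ m ∣[dqWeight S m] γ) τ = ∏ i ∈ S, ((dDelta (δ i) ∣[(12 : ℤ)] γ) τ) ^ m i := by
  simp only [SL_slash_apply, dqFun, dqWeight, mul_zpow, Finset.prod_mul_distrib]
  congr 1
  have hd : denom (γ : GL (Fin 2) ℝ) τ ≠ 0 := denom_ne_zero _ _
  have h1 : ∀ i ∈ S, (denom (γ : GL (Fin 2) ℝ) τ ^ (-(12 : ℤ))) ^ m i =
      denom (γ : GL (Fin 2) ℝ) τ ^ (-(12 : ℤ) * m i) := fun i _ => (zpow_mul _ _ _).symm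
  rw [Finset.prod_congr rfl h1, wp3_prod_zpow S _ hd, ← Finset.mul_sum]
  congr 1
  ring

/-- (G1) limit of the translates of a Δ-quotient at `i∞`. -/
theorem exists_tendsto_dqFun_slash (S : Finset ι) (δ : ι → ℕ) (hS : ∀ i ∈ S, δ i ≠ 0)
    (m : ι → ℤ) (γ : SL(2, ℤ)) :
    ∃ κ : ℂ, ‖κ‖ = ∏ i ∈ S, ((wp1E (δ i) γ : ℝ) ^ (12 * m i))⁻¹ ∧
      Tendsto (fun τ : ℍ => (dqFun S δ m ∣[dqWeight S m] γ) τ *
        cexp (-(2 * π * I * (dqOrd S δ m γ : ℂ) * (τ : ℂ)))) atImInfty (𝓝 κ) := by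
  classical
  have hex : ∀ d : ℕ, d ≠ 0 → ∃ κ : ℂ, ‖κ‖ = ((wp1E d γ : ℝ) ^ 12)⁻¹ ∧
      Tendsto (fun τ : ℍ => (dDelta d ∣[(12 : ℤ)] γ) τ *
        cexp (-(2 * π * I * ((((wp1G d γ : ℝ) ^ 2 / (d : ℝ) : ℝ)) : ℂ) * (τ : ℂ))))
        atImInfty (𝓝 κ) := fun d hd => wp3_tendsto_dDelta_slash hd γ
  choose! κ hκn hκt using hex
  have hκ0 : ∀ i ∈ S, κ (δ i) ≠ 0 := by
    intro i hi
    rw [← norm_pos_iff, hκn _ (hS i hi)]
    have : (0 : ℝ) < (wp1E (δ i) γ : ℝ) := by exact_mod_cast wp1E_pos (hS i hi) γ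
    positivity
  refine ⟨∏ i ∈ S, κ (δ i) ^ m i, ?_, ?_⟩
  · rw [norm_prod]
    refine Finset.prod_congr rfl fun i hi => ?_
    rw [norm_zpow, hκn _ (hS i hi), inv_zpow, ← zpow_natCast, ← zpow_mul]
    norm_num
  · have hprod := tendsto_finsetProd S fun i hi =>
      ((hκt _ (hS i hi)).zpow₀ (m i) (Or.inl (hκ0 i hi)))
    refine hprod.congr fun τ => ?_
    rw [dqFun_slash_apply]
    simp only [mul_zpow, Finset.prod_mul_distrib]
    congr 1
    simp only [← Complex.exp_int_mul, ← Complex.exp_sum]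
    congr 1
    rw [dqOrd]
    push_cast
    rw [Finset.mul_sum, Finset.sum_mul, ← Finset.sum_neg_distrib]
    refine Finset.sum_congr rfl fun i _ => ?_
    ring

/-- (G1), `ℕ`-indexed version. -/
theorem exists_tendsto_deltaQuot_slash (S : Finset ℕ) (hS : ∀ δ ∈ S, δ ≠ 0) (m : ℕ → ℤ)
    (γ : SL(2, ℤ)) :
    ∃ κ : ℂ, ‖κ‖ = ∏ δ ∈ S, ((wp1E δ γ : ℝ) ^ (12 * m δ))⁻¹ ∧
      Tendsto (fun τ : ℍ => (deltaQuot S m ∣[deltaQuotWeight S m] γ) τ *
        cexp (-(2 * π * I * (deltaQuotOrd S m γ : ℂ) * (τ : ℂ)))) atImInfty (𝓝 κ) :=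
  exists_tendsto_dqFun_slash S id hS m γ

end Fermat.Agent.S28
end MergeWrap_S28_DeltaQuot

section MergeWrap_S28_DeltaQuotMF -- from S28/DeltaQuotMF.lean

/-!
# S28, WP3 (helper31): a Δ-quotient with bounded translates is a modular form on `Γ₀(N)`

`isMF_deltaQuot_of_tendsto` : `(G2)` deduced from the statement of `(G1)`.
-/

set_option autoImplicit false

namespace Fermat.Agent.S28

open UpperHalfPlane hiding I
open ModularForm Filter Complex MatrixGroups Topology SlashInvariantForm OnePoint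
open scoped Real Manifold

lemma wp3b_G0_le_of_dvd {N d : ℕ} (hd : d ∣ N) : S23.G0 N ≤ S23.G0 d := by
  refine Subgroup.map_mono fun γ hγ => ?_
  rw [CongruenceSubgroup.Gamma0_mem] at hγ ⊢
  have h1 : (N : ℤ) ∣ γ 1 0 := (ZMod.intCast_zmod_eq_zero_iff_dvd _ N).mp hγ
  exact (ZMod.intCast_zmod_eq_zero_iff_dvd _ d).mpr ((Int.natCast_dvd_natCast.mpr hd).trans h1)

/-- `Δ(δ ·)` is invariant under `Γ₀(N)` for `δ ∣ N`: pointwise form. -/
lemma dDelta_smul_of_mem_G0 {N δ : ℕ} [NeZero N] (hδ : δ ∣ N) {γ : SL(2, ℤ)}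
    (hγ : (γ : GL (Fin 2) ℝ) ∈ S23.G0 N) (τ : ℍ) :
    dDelta δ (γ • τ) = denom γ τ ^ (12 : ℤ) * dDelta δ τ := by
  have hδ0 : δ ≠ 0 := fun h => NeZero.ne N (by rw [h] at hδ; exact Nat.eq_zero_of_zero_dvd hδ)
  have : NeZero δ := ⟨hδ0⟩
  have h1 : (⇑CuspForm.discriminant ∣[(12 : ℤ)] heckeDiagMatrix δ) ∣[(12 : ℤ)] (γ : GL (Fin 2) ℝ) =
      ⇑CuspForm.discriminant ∣[(12 : ℤ)] heckeDiagMatrix δ :=
    (CuspForm.translate CuspForm.discriminant (heckeDiagMatrix δ)).slash_action_eq' _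
      (S23.Theta.G0_le_conj δ (wp3b_G0_le_of_dvd hδ hγ))
  have h2 := congrFun h1 τ
  rw [← SL_slash, SL_slash_apply, slash_heckeDiagMatrix_apply 12 hδ0,
    slash_heckeDiagMatrix_apply 12 hδ0] at h2
  have hδC : ((δ : ℂ) ^ ((12 : ℤ) - 1)) ≠ 0 := zpow_ne_zero _ (by exact_mod_cast hδ0)
  have hden : denom γ τ ≠ 0 := denom_ne_zero _ _
  have h3 : discriminant (heckeDiagMatrix δ • (γ • τ)) * denom γ τ ^ (-(12 : ℤ)) =
      discriminant (heckeDiagMatrix δ • τ) := by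
    simp only [CuspForm.coe_discriminant] at h2
    rw [mul_assoc] at h2
    exact mul_left_cancel₀ hδC h2
  unfold dDelta
  rw [← h3, mul_comm (discriminant _), ← mul_assoc, ← zpow_add₀ hden]
  simp

lemma wp3b_prod_zpow_mul {x : ℂ} (hx : x ≠ 0) (S : Finset ℕ) (m : ℕ → ℤ) (a : ℤ) :
    ∏ δ ∈ S, x ^ (a * m δ) = x ^ (a * ∑ δ ∈ S, m δ) := by
  classical
  induction S using Finset.induction_on with
  | empty => simp
  | insert b S hb ih =>
    rw [Finset.prod_insert hb, Finset.sum_insert hb, ih, ← zpow_add₀ hx, mul_add]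

/-- A Δ-quotient of levels dividing `N` is slash invariant under `Γ₀(N)`. -/
lemma deltaQuot_slash_of_mem_G0 {N : ℕ} [NeZero N] (S : Finset ℕ) (hS : ∀ δ ∈ S, δ ∣ N)
    (m : ℕ → ℤ) {γ : SL(2, ℤ)} (hγ : (γ : GL (Fin 2) ℝ) ∈ S23.G0 N) :
    deltaQuot S m ∣[deltaQuotWeight S m] γ = deltaQuot S m := by
  funext τ
  rw [SL_slash_apply]
  have hden : denom γ τ ≠ 0 := denom_ne_zero _ _
  unfold deltaQuot deltaQuotWeight
  rw [Finset.prod_congr rfl fun δ hδ => by rw [dDelta_smul_of_mem_G0 (hS δ hδ) hγ τ, mul_zpow]]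
  rw [Finset.prod_mul_distrib, Finset.prod_congr rfl fun δ _ => (zpow_mul (denom γ τ) 12 (m δ)).symm,
    wp3b_prod_zpow_mul hden, mul_right_comm, ← zpow_add₀ hden]
  simp

/-- Boundedness at `i∞` of a function which, after multiplication by `e^{-2πi o τ}` with
`o ≥ 0`, has a limit at `i∞`. -/
lemma wp3b_isBoundedAtImInfty_of_tendsto {g : ℍ → ℂ} {o : ℝ} (ho : 0 ≤ o) {κ : ℂ}
    (h : Tendsto (fun τ : ℍ => g τ * cexp (-(2 * π * I * (o : ℂ) * (τ : ℂ)))) atImInfty (𝓝 κ)) :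
    IsBoundedAtImInfty g := by
  rw [IsBoundedAtImInfty, BoundedAtFilter]
  have h1 := h.isBigO_one ℝ
  refine Asymptotics.IsBigO.trans (Asymptotics.IsBigO.of_bound 1 ?_) h1
  refine Filter.Eventually.of_forall fun τ => ?_
  rw [one_mul, norm_mul, Complex.norm_exp]
  have h2 : (-(2 * π * I * (o : ℂ) * (τ : ℂ))).re = 2 * π * o * τ.im := by
    simp
  rw [h2]
  have h3 : 1 ≤ Real.exp (2 * π * o * τ.im) := by
    apply Real.one_le_exp
    have := τ.im_pos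
    positivity
  calc ‖g τ‖ = ‖g τ‖ * 1 := (mul_one _).symm
    _ ≤ ‖g τ‖ * Real.exp (2 * π * o * τ.im) := by gcongr

/-- **(G2) from (G1)**: a Δ-quotient with levels dividing `N`, nonnegative order at all cusps, and
whose translates have the asymptotics of `(G1)`, is a modular form on `Γ₀(N)`. -/
theorem isMF_deltaQuot_of_tendsto (N : ℕ) [NeZero N] (S : Finset ℕ) (hS : ∀ δ ∈ S, δ ∣ N)
    (m : ℕ → ℤ) (ho : ∀ γ : SL(2, ℤ), 0 ≤ deltaQuotOrd S m γ)
    (hG1 : ∀ γ : SL(2, ℤ), ∃ κ : ℂ,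
      Tendsto (fun τ : ℍ => (deltaQuot S m ∣[deltaQuotWeight S m] γ) τ *
        cexp (-(2 * π * I * (deltaQuotOrd S m γ : ℂ) * (τ : ℂ)))) atImInfty (𝓝 κ)) :
    S23.IsMF (S23.G0 N) (deltaQuotWeight S m) (deltaQuot S m) := by
  refine ⟨{ toFun := deltaQuot S m
            slash_action_eq' := ?_
            holo' := mdifferentiable_deltaQuot S m
            bdd_at_cusps' := ?_ }, rfl⟩
  · intro g hg
    obtain ⟨γ, -, rfl⟩ := Subgroup.mem_map.mp hg
    have := deltaQuot_slash_of_mem_G0 S hS m (γ := γ) hg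
    rwa [SL_slash] at this
  · intro c hc
    rw [Subgroup.IsArithmetic.isCusp_iff_isCusp_SL2Z] at hc
    rw [isBoundedAt_iff_forall_SL2Z hc]
    intro γ _
    obtain ⟨κ, hκ⟩ := hG1 γ
    exact wp3b_isBoundedAtImInfty_of_tendsto (ho γ) hκ

/-- **(G2)**: a Δ-quotient with levels dividing `N` and nonnegative order at all cusps is a
modular form on `Γ₀(N)`. -/
theorem isMF_deltaQuot_of_nonneg (N : ℕ) [NeZero N] (S : Finset ℕ) (hS : ∀ δ ∈ S, δ ∣ N)
    (m : ℕ → ℤ) (ho : ∀ γ : SL(2, ℤ), 0 ≤ deltaQuotOrd S m γ) :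
    S23.IsMF (S23.G0 N) (deltaQuotWeight S m) (deltaQuot S m) := by
  refine isMF_deltaQuot_of_tendsto N S hS m ho fun γ => ?_
  obtain ⟨κ, -, h⟩ := exists_tendsto_deltaQuot_slash S
    (fun δ hδ h0 => NeZero.ne N (by
      have := hS δ hδ
      rw [h0] at this
      exact Nat.eq_zero_of_zero_dvd this)) m γ
  exact ⟨κ, h⟩

end Fermat.Agent.S28
end MergeWrap_S28_DeltaQuotMF

section MergeWrap_S28_UnitMain -- from S28/UnitMain.lean

/-!
# S28, WP3b (helper31): the canonical modular unit `w_N` on `Γ₀(N)`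

* `wN N : ModularForm (G0 N) (12 · φ(rad N))`, `wN N τ = ∏_δ Δ(δ τ)^{m δ}`, nowhere zero;
* `exists_SL_of_coset` : each translate `quotientFunc (wN N) q` is `w_N ∣ γ`, and `q = 1 ↔ N ∣ γ 1 0`;
* `unit_main` : `∏_q quotientFunc (wN N) q = C · Δ^{φ n}` with `‖C‖` an `N`-unit, and `E = φ · n`.
-/

set_option autoImplicit false

namespace Fermat.Agent.S28

open UpperHalfPlane hiding I
open ModularForm Filter Complex MatrixGroups Topology SlashInvariantForm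
open scoped Real

/-- The canonical modular unit `w_N(τ) = ∏_δ Δ(δ τ)^{m δ}` as a function. -/
noncomputable def wNFun (N : ℕ) : ℍ → ℂ := deltaQuot (unitSet N) (unitM N)

lemma wNFun_ne_zero (N : ℕ) (τ : ℍ) : wNFun N τ ≠ 0 := deltaQuot_ne_zero _ _ τ

theorem isMF_wNFun (N : ℕ) [NeZero N] :
    S23.IsMF (S23.G0 N) (12 * (unitPhi N : ℤ)) (wNFun N) := by
  have h := isMF_deltaQuot_of_nonneg N (unitSet N) (fun δ hδ => wp3b_dvd_of_mem_unitSet hδ) (unitM N)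
    (deltaQuotOrd_unit_nonneg N (NeZero.ne N))
  rwa [deltaQuotWeight_unit N (NeZero.ne N)] at h

/-- The canonical modular unit as a modular form of weight `12 φ(rad N)` on `Γ₀(N)`. -/
noncomputable def wN (N : ℕ) [NeZero N] : ModularForm (S23.G0 N) (12 * (unitPhi N : ℤ)) :=
  (isMF_wNFun N).choose

theorem coe_wN (N : ℕ) [NeZero N] : ⇑(wN N) = wNFun N := (isMF_wNFun N).choose_spec

theorem wN_ne_zero (N : ℕ) [NeZero N] (τ : ℍ) : wN N τ ≠ 0 := by
  rw [coe_wN]; exact wNFun_ne_zero N τ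

/-- Membership in `Γ₀(N)` (as a subgroup of `GL(2,ℝ)`) of the image of `γ ∈ SL(2,ℤ)`. -/
lemma mapGL_mem_G0_iff (N : ℕ) (γ : SL(2, ℤ)) :
    (Matrix.SpecialLinearGroup.mapGL ℝ γ : GL (Fin 2) ℝ) ∈ S23.G0 N ↔ (N : ℤ) ∣ γ 1 0 := by
  rw [S23.G0, Subgroup.mem_map]
  constructor
  · rintro ⟨g, hg, hgγ⟩
    have : g = γ := Matrix.SpecialLinearGroup.mapGL_injective hgγ
    subst this
    rw [CongruenceSubgroup.Gamma0_mem] at hg
    exact (ZMod.intCast_zmod_eq_zero_iff_dvd _ N).mp hg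
  · intro h
    refine ⟨γ, ?_, rfl⟩
    rw [CongruenceSubgroup.Gamma0_mem]
    exact (ZMod.intCast_zmod_eq_zero_iff_dvd _ N).mpr h

/-- Every translate of `w_N` is `w_N ∣ γ` for some `γ ∈ SL(2,ℤ)`; the trivial coset corresponds
to `N ∣ γ 1 0`. -/
theorem exists_SL_of_coset (N : ℕ) [NeZero N] (q : S23.EsymmQ N) :
    ∃ γ : SL(2, ℤ), quotientFunc (wN N) q = wNFun N ∣[12 * (unitPhi N : ℤ)] γ ∧
      (q = QuotientGroup.mk 1 ↔ (N : ℤ) ∣ γ 1 0) := by
  induction q using Quotient.inductionOn with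
  | h r =>
    obtain ⟨γ, hγ⟩ := (r⁻¹).2
    refine ⟨γ, ?_, ?_⟩
    · rw [quotientFunc_mk, coe_wN, SL_slash]
      congr 1
      rw [← Subgroup.coe_inv]
      exact hγ.symm
    · have h1 : (Quotient.mk _ r : S23.EsymmQ N) = QuotientGroup.mk r := rfl
      rw [h1, QuotientGroup.eq, Subgroup.mem_subgroupOf, ← mapGL_mem_G0_iff, hγ]
      simp

/-- The norm of the limit in `(G1)` is an `N`-unit. -/
lemma isNUnit_prod_wp1E (N : ℕ) (hN : N ≠ 0) (γ : SL(2, ℤ)) :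
    IsNUnit N (∏ δ ∈ unitSet N, ((wp1E δ γ : ℝ) ^ (12 * unitM N δ))⁻¹) := by
  refine isNUnit_prod _ _ fun δ hδ => ?_
  have h1 : wp1E δ γ ∣ N :=
    (Dvd.intro_left _ (wp1G_mul_wp1E δ γ)).trans (wp3b_dvd_of_mem_unitSet hδ)
  exact ((isNUnit_natCast hN h1).zpow _).inv

/-- The exponent of `q(τ)` in the leading term of the translate indexed by `q`. -/
noncomputable def cosetOrd (N : ℕ) [NeZero N] (q : S23.EsymmQ N) : ℝ :=
  open Classical in if q = QuotientGroup.mk 1 then (unitE N : ℝ) else 0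

/-- Asymptotics of the translates of `w_N`. -/
theorem exists_tendsto_quotientFunc (N : ℕ) [NeZero N] (q : S23.EsymmQ N) :
    ∃ κ : ℂ, IsNUnit N ‖κ‖ ∧
      Tendsto (fun τ : ℍ => quotientFunc (wN N) q τ *
        cexp (-(2 * π * I * (cosetOrd N q : ℂ) * (τ : ℂ)))) atImInfty (𝓝 κ) := by
  have hN : N ≠ 0 := NeZero.ne N
  obtain ⟨γ, hγ, hq⟩ := exists_SL_of_coset N q
  obtain ⟨κ, hκ, hlim⟩ := exists_tendsto_deltaQuot_slash (unitSet N)
    (fun δ hδ => wp3b_ne_zero_of_mem_unitSet hN hδ) (unitM N) γ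
  refine ⟨κ, hκ ▸ isNUnit_prod_wp1E N hN γ, ?_⟩
  rw [deltaQuotWeight_unit N hN] at hlim
  have hord : deltaQuotOrd (unitSet N) (unitM N) γ = cosetOrd N q := by
    unfold cosetOrd
    by_cases h : (N : ℤ) ∣ γ 1 0
    · rw [if_pos (hq.mpr h), deltaQuotOrd_unit_of_dvd N hN γ h]
    · rw [if_neg (fun h' => h (hq.mp h')), deltaQuotOrd_unit_of_not_dvd N hN γ h]
  rw [hord] at hlim
  rw [hγ]
  exact hlim

/-- Asymptotics of the product of all translates of `w_N`. -/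
theorem exists_tendsto_prod_quotientFunc (N : ℕ) [NeZero N] [Fintype (S23.EsymmQ N)] :
    ∃ κ : ℂ, IsNUnit N ‖κ‖ ∧
      Tendsto (fun τ : ℍ => (∏ q : S23.EsymmQ N, quotientFunc (wN N) q τ) *
        cexp (-(2 * π * I * (unitE N : ℂ) * (τ : ℂ)))) atImInfty (𝓝 κ) := by
  classical
  choose κ hκ hlim using exists_tendsto_quotientFunc N
  refine ⟨∏ q, κ q, ?_, ?_⟩
  · rw [norm_prod]
    exact isNUnit_prod _ _ fun q _ => hκ q
  · have h1 := tendsto_finsetProd (Finset.univ : Finset (S23.EsymmQ N)) fun q _ => hlim q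
    refine h1.congr fun τ => ?_
    rw [Finset.prod_mul_distrib]
    congr 1
    rw [Finset.prod_eq_single (QuotientGroup.mk 1 : S23.EsymmQ N)]
    · simp [cosetOrd]
    · intro q _ hq
      simp [cosetOrd, hq]
    · intro h; exact absurd (Finset.mem_univ _) h

lemma wp3b_tendsto_im : Tendsto (fun τ : ℍ => τ.im) atImInfty atTop := tendsto_comap

/-- `exp(a · Im τ)` has a finite non-zero limit at `i∞` only if `a = 0`. -/
lemma wp3b_exp_im_limit {a L : ℝ} (hL : L ≠ 0)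
    (h : Tendsto (fun τ : ℍ => Real.exp (a * τ.im)) atImInfty (𝓝 L)) : a = 0 := by
  rcases lt_trichotomy a 0 with ha | ha | ha
  · exfalso
    have h1 : Tendsto (fun τ : ℍ => a * τ.im) atImInfty atBot :=
      (tendsto_const_mul_atBot_of_neg ha).mpr wp3b_tendsto_im
    have h2 : Tendsto (fun τ : ℍ => Real.exp (a * τ.im)) atImInfty (𝓝 0) :=
      Real.tendsto_exp_atBot.comp h1
    exact hL (tendsto_nhds_unique h h2)
  · exact ha
  · exfalso
    have h1 : Tendsto (fun τ : ℍ => a * τ.im) atImInfty atTop :=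
      (tendsto_const_mul_atTop_of_pos ha).mpr wp3b_tendsto_im
    have h2 : Tendsto (fun τ : ℍ => Real.exp (a * τ.im)) atImInfty atTop :=
      Real.tendsto_exp_atTop.comp h1
    exact not_tendsto_nhds_of_tendsto_atTop h2 L h

/-- Exponent matching: if `C Δ^M e^{-2πi E τ}` has a non-zero limit `κ` at `i∞`, then `E = M` and
`C = κ`. -/
lemma wp3b_exp_match {C κ : ℂ} (hC : C ≠ 0) (hκ : κ ≠ 0) (M : ℕ) (E : ℤ)
    (h : Tendsto (fun τ : ℍ => C * discriminant τ ^ M *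
      cexp (-(2 * π * I * (E : ℂ) * (τ : ℂ)))) atImInfty (𝓝 κ)) :
    E = (M : ℤ) ∧ C = κ := by
  have hq : ∀ τ : ℍ, Function.Periodic.qParam 1 (τ : ℂ) = cexp (2 * π * I * (τ : ℂ)) := by
    intro τ; simp [Function.Periodic.qParam]
  -- `g = Δ / q → 1`
  have hg : Tendsto (fun τ : ℍ => C * (discriminant τ / Function.Periodic.qParam 1 (τ : ℂ)) ^ M)
      atImInfty (𝓝 C) := by
    have := (tendsto_discriminant_div_qParam.pow M).const_mul C
    simpa using this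
  have hquot : Tendsto (fun τ : ℍ => cexp (2 * π * I * (((M : ℤ) - E : ℤ) : ℂ) * (τ : ℂ)))
      atImInfty (𝓝 (κ / C)) := by
    refine (h.div hg hC).congr fun τ => ?_
    simp only [Pi.div_apply]
    have hq0 : Function.Periodic.qParam 1 (τ : ℂ) ≠ 0 := wp2_qParam_one_ne_zero τ
    have hd0 : discriminant τ ≠ 0 := discriminant_ne_zero τ
    rw [div_pow, hq τ, ← Complex.exp_nat_mul]
    rw [div_eq_iff (mul_ne_zero hC (div_ne_zero (pow_ne_zero M hd0) (Complex.exp_ne_zero _)))]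
    rw [show cexp (2 * π * I * (((M : ℤ) - E : ℤ) : ℂ) * (τ : ℂ)) *
        (C * (discriminant τ ^ M / cexp ((M : ℂ) * (2 * π * I * (τ : ℂ))))) =
        C * discriminant τ ^ M * (cexp (2 * π * I * (((M : ℤ) - E : ℤ) : ℂ) * (τ : ℂ)) /
          cexp ((M : ℂ) * (2 * π * I * (τ : ℂ)))) by ring]
    rw [← Complex.exp_sub]
    congr 2
    push_cast
    ring
  have hnorm : Tendsto (fun τ : ℍ => Real.exp ((-(2 * π * (((M : ℤ) - E : ℤ) : ℝ))) * τ.im))
      atImInfty (𝓝 ‖κ / C‖) := by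
    refine (hquot.norm).congr fun τ => ?_
    rw [Complex.norm_exp]
    congr 1
    simp
  have hD : -(2 * π * (((M : ℤ) - E : ℤ) : ℝ)) = 0 :=
    wp3b_exp_im_limit (norm_ne_zero_iff.mpr (div_ne_zero hκ hC)) hnorm
  have hD' : ((M : ℤ) - E : ℤ) = 0 := by
    have h1 : (((M : ℤ) - E : ℤ) : ℝ) = 0 := by
      have hpi : (2 * π : ℝ) ≠ 0 := by positivity
      have := neg_eq_zero.mp hD
      exact (mul_eq_zero.mp this).resolve_left hpi
    exact_mod_cast h1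
  refine ⟨by omega, ?_⟩
  rw [hD'] at hquot
  simp only [Int.cast_zero, mul_zero, zero_mul, Complex.exp_zero] at hquot
  have h1 : (1 : ℂ) = κ / C := tendsto_nhds_unique tendsto_const_nhds hquot
  rw [eq_div_iff hC, one_mul] at h1
  exact h1


/-- Each translate of `w_N` is nowhere zero. -/
lemma quotientFunc_wN_ne_zero (N : ℕ) [NeZero N] (q : S23.EsymmQ N) (τ : ℍ) :
    quotientFunc (wN N) q τ ≠ 0 := by
  obtain ⟨γ, hγ, -⟩ := exists_SL_of_coset N q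
  rw [hγ, SL_slash_apply]
  exact mul_ne_zero (wNFun_ne_zero N _) (zpow_ne_zero _ (denom_ne_zero _ _))

/-- **Main theorem on the canonical unit**: the product of all `SL(2,ℤ)`-translates of `w_N` is
`C · Δ^{φ n}` with `‖C‖` an `N`-unit, and the order `E = Σ_δ m_δ δ` of `w_N` at `i∞` is `φ · n`
(`n = [SL(2,ℤ) : Γ₀(N)]`, `φ = φ(rad N)`). -/
theorem unit_main (N : ℕ) [NeZero N] [Fintype (S23.EsymmQ N)] :
    unitE N = (unitPhi N : ℤ) * (Fintype.card (S23.EsymmQ N) : ℤ) ∧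
    ∃ C : ℂ, IsNUnit N ‖C‖ ∧ ∀ τ : ℍ,
      ∏ q : S23.EsymmQ N, quotientFunc (wN N) q τ =
        C * discriminant τ ^ (unitPhi N * Fintype.card (S23.EsymmQ N)) := by
  classical
  set n := Fintype.card (S23.EsymmQ N) with hn
  -- the norm form
  set F : ModularForm 𝒮ℒ (12 * (unitPhi N : ℤ) * Nat.card (S23.EsymmQ N)) :=
    ModularForm.norm 𝒮ℒ (wN N) with hF
  have hFcoe : ∀ τ, F τ = ∏ q : S23.EsymmQ N, quotientFunc (wN N) q τ := by
    intro τ
    rw [hF, ModularForm.coe_norm, Finset.prod_apply]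
    refine Finset.prod_congr ?_ fun _ _ => rfl
    ext q; simp
  have hF0 : ∀ τ, F τ ≠ 0 := fun τ => by
    rw [hFcoe]
    exact Finset.prod_ne_zero_iff.mpr fun q _ => quotientFunc_wN_ne_zero N q τ
  have hk : (12 * (unitPhi N : ℤ) * Nat.card (S23.EsymmQ N) : ℤ) =
      12 * ((unitPhi N * n : ℕ) : ℤ) := by
    rw [Nat.card_eq_fintype_card]; push_cast; ring
  obtain ⟨C, hC, hCF⟩ := wp3b_eq_const_mul_discriminant_pow (unitPhi N * n) _ hk F hF0
  obtain ⟨κ, hκ, hlim⟩ := exists_tendsto_prod_quotientFunc N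
  have hκ0 : κ ≠ 0 := norm_ne_zero_iff.mp hκ.pos.ne'
  have hlim' : Tendsto (fun τ : ℍ => C * discriminant τ ^ (unitPhi N * n) *
      cexp (-(2 * π * I * (unitE N : ℂ) * (τ : ℂ)))) atImInfty (𝓝 κ) := by
    refine hlim.congr fun τ => ?_
    rw [← hFcoe, hCF]
  obtain ⟨hE, hCκ⟩ := wp3b_exp_match hC hκ0 (unitPhi N * n) (unitE N) hlim'
  refine ⟨by rw [hE]; push_cast; ring, C, hCκ ▸ hκ, fun τ => ?_⟩
  rw [← hFcoe, hCF]

end Fermat.Agent.S28
end MergeWrap_S28_UnitMain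

section MergeWrap_S28_UnitVd -- from S28/UnitVd.lean

/-!
# S28, WP3b (helper31): the forms `v_d = E₄(dτ)³ Δ(τ)^d / Δ(dτ)` on `Γ₀(N)`, `d ∣ N`

`j(dτ) = v_d / Δ^d`, so `v_d` is the numerator of `j_d` with denominator a power of `Δ`.
-/

set_option autoImplicit false

namespace Fermat.Agent.S28

open UpperHalfPlane hiding I
open ModularForm Filter Complex MatrixGroups Topology SlashInvariantForm
open scoped Real

/-- The index set `{1, d}` of the Δ-quotient `Δ(τ)^d / Δ(dτ)`. -/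
def vdSet (d : ℕ) : Finset ℕ := {1, d}

/-- The exponents of the Δ-quotient `Δ(τ)^d / Δ(dτ)`. -/
def vdM (d : ℕ) (δ : ℕ) : ℤ := (if δ = 1 then (d : ℤ) else 0) + (if δ = d then -1 else 0)

lemma heckeDiagMatrix_one_smul (τ : ℍ) : heckeDiagMatrix 1 • τ = τ := by
  have : heckeDiagMatrix 1 = 1 := by
    apply Matrix.GeneralLinearGroup.ext
    intro i j
    fin_cases i <;> fin_cases j <;> simp
  rw [this, one_smul]

lemma dDelta_one (τ : ℍ) : dDelta 1 τ = discriminant τ := by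
  rw [dDelta, heckeDiagMatrix_one_smul]

lemma deltaQuotWeight_vd (d : ℕ) : deltaQuotWeight (vdSet d) (vdM d) = 12 * ((d : ℤ) - 1) := by
  unfold deltaQuotWeight vdSet vdM
  by_cases hd : d = 1
  · subst hd; simp
  · rw [Finset.sum_pair (Ne.symm hd)]
    simp [hd, Ne.symm hd]
    ring

lemma deltaQuot_vd (d : ℕ) (τ : ℍ) :
    deltaQuot (vdSet d) (vdM d) τ = discriminant τ ^ d / dDelta d τ := by
  unfold deltaQuot vdSet vdM
  by_cases hd : d = 1
  · subst hd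
    simp [dDelta_one, discriminant_ne_zero]
  · rw [Finset.prod_pair (Ne.symm hd)]
    simp [hd, Ne.symm hd, dDelta_one, div_eq_mul_inv]

lemma deltaQuotOrd_vd_nonneg (d : ℕ) (hd0 : d ≠ 0) (γ : SL(2, ℤ)) :
    0 ≤ deltaQuotOrd (vdSet d) (vdM d) γ := by
  unfold deltaQuotOrd vdSet vdM
  by_cases hd : d = 1
  · subst hd; simp
  · rw [Finset.sum_pair (Ne.symm hd)]
    have hG1 : wp1G 1 γ = 1 := Nat.dvd_one.mp (wp1G_dvd 1 γ)
    have hGd : (wp1G d γ : ℝ) ≤ d := by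
      exact_mod_cast Nat.le_of_dvd (Nat.pos_of_ne_zero hd0) (wp1G_dvd d γ)
    have hGd0 : (0 : ℝ) ≤ wp1G d γ := by positivity
    have hdpos : (0 : ℝ) < d := by exact_mod_cast Nat.pos_of_ne_zero hd0
    simp only [hd, Ne.symm hd, if_true, if_false, hG1]
    have h1 : (wp1G d γ : ℝ) ^ 2 / d ≤ d := by
      rw [div_le_iff₀ hdpos]; nlinarith
    push_cast
    simp only [add_zero, one_pow, div_one, mul_one]
    linarith

/-- `Δ(τ)^d / Δ(dτ)` is a modular form of weight `12 (d - 1)` on `Γ₀(N)` for `d ∣ N`. -/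
theorem isMF_vdQuot (N d : ℕ) [NeZero N] (hd : d ∣ N) :
    S23.IsMF (S23.G0 N) (12 * ((d : ℤ) - 1)) (fun τ => discriminant τ ^ d / dDelta d τ) := by
  have hd0 : d ≠ 0 := fun h => NeZero.ne N (by rw [h] at hd; exact Nat.eq_zero_of_zero_dvd hd)
  have h := isMF_deltaQuot_of_nonneg N (vdSet d) (fun δ hδ => by
    rcases Finset.mem_insert.mp hδ with h | h
    · rw [h]; exact one_dvd N
    · rw [Finset.mem_singleton.mp h]; exact hd) (vdM d) (deltaQuotOrd_vd_nonneg d hd0)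
  rw [deltaQuotWeight_vd] at h
  convert h using 1
  funext τ
  exact (deltaQuot_vd d τ).symm

/-- `τ ↦ E₄(dτ)` as a modular form of weight `4` on `Γ₀(N)`, `d ∣ N`. -/
noncomputable def thetaAt (N d : ℕ) [NeZero N] [NeZero d] (hd : d ∣ N) :
    ModularForm (S23.G0 N) 4 where
  toFun := ⇑(S23.Theta.theta d)
  slash_action_eq' γ hγ := (S23.Theta.theta d).slash_action_eq' γ (wp3b_G0_le_of_dvd hd hγ)
  holo' := (S23.Theta.theta d).holo'
  bdd_at_cusps' hc := (S23.Theta.theta d).bdd_at_cusps' (hc.mono (wp3b_G0_le_of_dvd hd))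

lemma thetaAt_apply (N d : ℕ) [NeZero N] [NeZero d] (hd : d ∣ N) (τ : ℍ) :
    thetaAt N d hd τ = E₄ (heckeDiagMatrix d • τ) :=
  S23.Theta.theta_apply d τ

/-- The form `v_d(τ) = E₄(dτ)³ Δ(τ)^d / Δ(dτ)` of weight `12 d` on `Γ₀(N)`, `d ∣ N`. -/
theorem exists_vd (N d : ℕ) [NeZero N] (hd : d ∣ N) :
    ∃ v : ModularForm (S23.G0 N) (12 * (d : ℤ)), ∀ τ : ℍ,
      v τ = E₄ (heckeDiagMatrix d • τ) ^ 3 * discriminant τ ^ d /
        discriminant (heckeDiagMatrix d • τ) := by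
  have hd0 : d ≠ 0 := fun h => NeZero.ne N (by rw [h] at hd; exact Nat.eq_zero_of_zero_dvd hd)
  have : NeZero d := ⟨hd0⟩
  obtain ⟨Q, hQ⟩ := isMF_vdQuot N d hd
  set θ := thetaAt N d hd
  refine ⟨ModularForm.mcast (by ring) (((θ.mul θ).mul θ).mul Q), fun τ => ?_⟩
  change θ τ * θ τ * θ τ * Q τ = _
  rw [hQ, thetaAt_apply]
  simp only [dDelta]
  ring

end Fermat.Agent.S28
end MergeWrap_S28_UnitVd

section MergeWrap_S28_ThmA -- from S28/ThmA.lean

set_option autoImplicit false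

namespace Fermat.Agent.S28

open UpperHalfPlane ModularForm MatrixGroups Polynomial
open Fermat.Agent.S23 ModularCurve
open Fermat.Agent.S28.QExp

/-- **Theorem A.** -/
theorem thmA (N : ℕ) [NeZero N] : ThmAStatement N := by
  have hN : N ≠ 0 := NeZero.ne N
  obtain ⟨hE, hmain⟩ := @unit_main N _ (instFintypeQ (N := N))
  refine thmA_of_inputs N (unitPhi N) (unitPhi_pos N) (wN N) (thmA_formalU N) ?_ ?_ hmain
    (fun d hd => exists_vd N d hd)
  · have h := isMonicUnitSeries_formalU N hN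
    have hn : 0 < Fintype.card (Q N) := card_Q_pos
    have e : unitE N - (unitPhi N : ℤ) = ((unitPhi N * (Fintype.card (Q N) - 1) : ℕ) : ℤ) := by
      rw [hE, Nat.cast_mul, Nat.cast_sub hn]
      push_cast
      ring
    rwa [e] at h
  · rw [thmA_formalU, thmA_toC_formalQuot]
    exact thmA_hasQ_unit (unitSet N) (unitM N)
      (fun δ hδ => wp3b_ne_zero_of_mem_unitSet hN hδ) (unitPhi N) (coe_wN N)

end Fermat.Agent.S28
end MergeWrap_S28_ThmA
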